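/-
Program J (S30), chapter J2 DESCENT (helper24): **extension of places along an extension of
algebraically closed constant fields** `k ⊆ K` (e.g. `ℚ̄ ⊆ ℂ`), abstract form.

Data: function fields `Fk / k`, `FK / K`, a ring hom `ι : Fk → FK` compatible with `k → K`, such that
* (LD) `K` and `ι Fk` are linearly disjoint over `k` inside `FK`;
* (GEN) `FK` is the fraction field of the `K`-span of `ι Fk`.
Then every place `w` of `Fk` has a UNIQUE extension `ext w` to `FK`, `ord_{ext w} ∘ ι = ord_w`, and
a place of `FK` is an extension iff some `ι f`, `f ≠ 0`, has positive order at it.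
-/
import Mathlib
import Fermat.Prelude.Def_AlgebraicCurve_DivisorClassGroup
import Fermat.Agent.X0.FFPlace
import Fermat.Agent.X0.FFConst
import Fermat.Agent.X0.FFSum
import Fermat.Agent.X0.LaurentPlace
import Fermat.Agent.RED.DESC.PlaceExtend27

set_option autoImplicit false
set_option linter.unusedSectionVars false
set_option linter.style.longLine false

namespace Fermat.Agent.J.DESC.ConstExt24

open AlgebraicCurve Fermat.Agent.X0
open scoped Pointwise

noncomputable section

universe u v w x

variable {k : Type u} {K : Type v} {Fk : Type w} {FK : Type x} [Field k] [Field K] [Field Fk]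
  [Field FK] [Algebra k K] [Algebra k Fk] [Algebra K FK]

/-- The coordinate sum `f ↦ ∑ i, B i * ι (f i)`. -/
def coordSum (ι : Fk →+* FK) {I : Type v} (B : I → K) : (I →₀ Fk) →+ FK :=
  Finsupp.liftAddHom fun i =>
    (AddMonoidHom.mulLeft (algebraMap K FK (B i))).comp ι.toAddMonoidHom

@[simp] theorem coordSum_single (ι : Fk →+* FK) {I : Type v} (B : I → K) (i : I) (a : Fk) :
    coordSum ι B (Finsupp.single i a) = algebraMap K FK (B i) * ι a := by
  simp [coordSum]

theorem coordSum_apply (ι : Fk →+* FK) {I : Type v} (B : I → K) (f : I →₀ Fk) :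
    coordSum ι B f = f.sum fun i a => algebraMap K FK (B i) * ι a := by
  simp only [coordSum, Finsupp.liftAddHom_apply]
  rfl

/-- **Constant field extension.** -/
structure IsConstExt (ι : Fk →+* FK) : Prop where
  comm : ∀ c : k, ι (algebraMap k Fk c) = algebraMap K FK (algebraMap k K c)
  ld : ∀ (I : Type v) (B : I → K), LinearIndependent k B → ∀ f : I →₀ Fk,
    coordSum ι B f = 0 → f = 0
  gen : ∀ y : FK, ∃ a ∈ Submodule.span K (Set.range ι), ∃ b ∈ Submodule.span K (Set.range ι),
    b ≠ 0 ∧ y = a / b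

/-! ### Coordinates with respect to a `k`-basis of `K` -/

section Coord

variable {ι : Fk →+* FK} (hι : IsConstExt (k := k) (K := K) ι) {I : Type v}
  (B : Module.Basis I k K)

include hι in
theorem map_smul_const (c : k) (g : Fk) :
    ι (c • g) = algebraMap K FK (algebraMap k K c) * ι g := by
  rw [Algebra.smul_def, map_mul, hι.comm]

/-- Coordinates of `c * ι g`. -/
def coordOf (c : K) (g : Fk) : I →₀ Fk :=
  (B.repr c).mapRange (fun l => l • g) (zero_smul _ _)

theorem coordOf_apply (c : K) (g : Fk) (i : I) : coordOf B c g i = B.repr c i • g := by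
  simp [coordOf]

include hι in
theorem coordSum_coordOf (c : K) (g : Fk) :
    coordSum ι B (coordOf B c g) = algebraMap K FK c * ι g := by
  rw [coordSum_apply, coordOf, Finsupp.sum_mapRange_index (by intro i; simp)]
  have h1 : c = (B.repr c).sum fun i a => a • B i := by
    conv_lhs => rw [← B.linearCombination_repr c, Finsupp.linearCombination_apply]
  conv_rhs => rw [h1, map_finsuppSum, Finsupp.sum_mul]
  refine Finsupp.sum_congr fun i _ => ?_
  rw [map_smul_const hι, Algebra.smul_def, map_mul]
  ring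

include hι in
/-- Every element of the `K`-span of `ι S` (`S` a `k`-subspace) has coordinates in `S`. -/
theorem exists_coord_of_mem_span (S : Submodule k Fk) {a : FK}
    (ha : a ∈ Submodule.span K (ι '' (S : Set Fk))) :
    ∃ f : I →₀ Fk, (∀ i, f i ∈ S) ∧ coordSum ι B f = a := by
  classical
  rw [Finsupp.mem_span_image_iff_linearCombination] at ha
  obtain ⟨l, hl, rfl⟩ := ha
  refine ⟨l.sum fun g c => coordOf B c g, ?_, ?_⟩
  · intro i
    rw [Finsupp.sum_apply]
    refine Submodule.sum_mem _ fun g hg => ?_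
    show coordOf B (l g) g i ∈ S
    rw [coordOf_apply]
    exact S.smul_mem _ (hl hg)
  · rw [map_finsuppSum, Finsupp.linearCombination_apply]
    refine Finsupp.sum_congr fun g _ => ?_
    rw [coordSum_coordOf hι, Algebra.smul_def]

include hι in
theorem coordSum_injective : Function.Injective (coordSum ι B) := by
  rw [injective_iff_map_eq_zero]
  exact fun f hf => hι.ld I B B.linearIndependent f hf

theorem coordSum_mul_left (g : Fk) (f : I →₀ Fk) :
    coordSum ι B (f.mapRange (fun a => g * a) (mul_zero g)) = ι g * coordSum ι B f := by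
  rw [coordSum_apply, coordSum_apply, Finsupp.sum_mapRange_index (by intro i; simp),
    Finsupp.mul_sum]
  refine Finsupp.sum_congr fun i _ => ?_
  rw [map_mul]
  ring

include hι in
theorem coordSum_const (c : I →₀ k) :
    coordSum ι B (c.mapRange (algebraMap k Fk) (map_zero _)) =
      algebraMap K FK (Finsupp.linearCombination k B c) := by
  rw [coordSum_apply, Finsupp.sum_mapRange_index (by intro i; simp),
    Finsupp.linearCombination_apply, map_finsuppSum]
  refine Finsupp.sum_congr fun i _ => ?_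
  rw [hι.comm, Algebra.smul_def, map_mul]
  ring

end Coord

/-! ### Valuation subrings of `FK` over a place of `Fk` -/

section Over

variable [IsAlgClosed k] {ι : Fk →+* FK} (hι : IsConstExt (k := k) (K := K) ι) {I : Type v}
  (B : Module.Basis I k K) {x : Fk} (hx : FF.IsGen k x) (w : Place k Fk)

/-- `V` contains `K`, `ι O_w`, and `ι 𝔪_w` consists of non-units of `V`. -/
structure IsOver (K : Type v) [Field K] [Algebra K FK] (V : ValuationSubring FK) (w : Place k Fk)
    (ι : Fk →+* FK) : Prop where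
  const : ∀ c : K, algebraMap K FK c ∈ V
  mem : ∀ a ∈ w.toValuationSubring, ι a ∈ V
  nonunit : ∀ a ∈ w.toValuationSubring.nonunits, ι a ∈ V.nonunits

include hx in
/-- Residue field `= k`: every element of `O_w` is a constant modulo `𝔪_w`. -/
theorem exists_const {a : Fk} (ha : a ∈ w.toValuationSubring) :
    ∃ c : k, a - algebraMap k Fk c ∈ w.toValuationSubring.nonunits := by
  obtain ⟨c, hc | hc⟩ := FF.exists_ord_sub_pos hx w ha
  · refine ⟨c, ?_⟩
    rw [hc, sub_self, ValuationSubring.mem_nonunits_iff_or]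
    exact Or.inl rfl
  · refine ⟨c, ?_⟩
    rw [ValuationSubring.mem_nonunits_iff_or]
    right
    intro hmem
    have := FF.ffp_ord_nonneg_of_mem w hmem
    rw [w.ord_inv] at this
    omega

open Classical in
/-- A choice of constant residue, `0 ↦ 0`. -/
def cst (a : Fk) : k :=
  if h : a ∈ w.toValuationSubring ∧ a ≠ 0 then Classical.choose (exists_const hx w h.1) else 0

theorem cst_zero : cst hx w 0 = 0 := by
  simp [cst]

theorem sub_cst_mem {a : Fk} (ha : a ∈ w.toValuationSubring) :
    a - algebraMap k Fk (cst hx w a) ∈ w.toValuationSubring.nonunits := by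
  by_cases h0 : a = 0
  · subst h0
    rw [cst_zero, map_zero, sub_zero, ValuationSubring.mem_nonunits_iff_or]
    exact Or.inl rfl
  · have h : a ∈ w.toValuationSubring ∧ a ≠ 0 := ⟨ha, h0⟩
    rw [cst, dif_pos h]
    exact Classical.choose_spec (exists_const hx w h.1)

variable {w}

theorem valuation_const {V : ValuationSubring FK} (hV : IsOver K V w ι) {c : K} (hc : c ≠ 0) :
    V.valuation (algebraMap K FK c) = 1 := by
  have h1 : V.valuation (algebraMap K FK c) ≤ 1 :=
    (V.valuation_le_one_iff _).mpr (hV.const c)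
  have h2 : V.valuation (algebraMap K FK c⁻¹) ≤ 1 :=
    (V.valuation_le_one_iff _).mpr (hV.const c⁻¹)
  have h3 : V.valuation (algebraMap K FK c) * V.valuation (algebraMap K FK c⁻¹) = 1 := by
    rw [← map_mul, ← map_mul, mul_inv_cancel₀ hc, map_one, map_one]
  refine le_antisymm h1 ?_
  calc (1 : V.ValueGroup) = V.valuation (algebraMap K FK c) * V.valuation (algebraMap K FK c⁻¹) :=
        h3.symm
    _ ≤ V.valuation (algebraMap K FK c) * 1 := mul_le_mul_right h2 _
    _ = V.valuation (algebraMap K FK c) := mul_one _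

include hι hx in
/-- **Unit lemma.** Integral coordinates, one of them a unit: the coordinate sum is a unit of
every valuation subring over `w`. -/
theorem valuation_coordSum_eq_one {V : ValuationSubring FK} (hV : IsOver K V w ι) (g : I →₀ Fk)
    (hg : ∀ i, g i ∈ w.toValuationSubring) (i₁ : I) (h1 : g i₁ ∉ w.toValuationSubring.nonunits) :
    V.valuation (coordSum ι B g) = 1 := by
  classical
  set c : I →₀ k := g.mapRange (cst hx w) (cst_zero hx w) with hc
  set h : I →₀ Fk := g - c.mapRange (algebraMap k Fk) (map_zero _) with hh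
  have hg' : g = c.mapRange (algebraMap k Fk) (map_zero _) + h := by
    rw [hh]; abel
  have hhi : ∀ i, h i ∈ w.toValuationSubring.nonunits := by
    intro i
    have : h i = g i - algebraMap k Fk (cst hx w (g i)) := by
      simp [hh, hc]
    rw [this]
    exact sub_cst_mem hx w (hg i)
  have hcne : c ≠ 0 := by
    intro h0
    apply h1
    have h2 := sub_cst_mem hx w (hg i₁)
    have h3 : cst hx w (g i₁) = 0 := by
      have := DFunLike.congr_fun h0 i₁
      simpa [hc] using this
    rwa [h3, map_zero, sub_zero] at h2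
  have hs : Finsupp.linearCombination k B c ≠ 0 := by
    intro h0
    exact hcne (linearIndependent_iff.mp B.linearIndependent c h0)
  have hsum : V.valuation (coordSum ι B h) < 1 := by
    rw [coordSum_apply, Finsupp.sum]
    refine Valuation.map_sum_lt _ one_ne_zero fun i _ => ?_
    rw [map_mul]
    have h2 : V.valuation (algebraMap K FK (B i)) ≤ 1 :=
      (V.valuation_le_one_iff _).mpr (hV.const _)
    have h3 : V.valuation (ι (h i)) < 1 :=
      V.mem_nonunits_iff.mp (hV.nonunit _ (hhi i))
    calc V.valuation (algebraMap K FK (B i)) * V.valuation (ι (h i))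
        ≤ 1 * V.valuation (ι (h i)) := mul_le_mul_left h2 _
      _ = V.valuation (ι (h i)) := one_mul _
      _ < 1 := h3
  rw [hg', map_add, coordSum_const hι]
  have h4 := valuation_const hV hs
  rw [Valuation.map_add_eq_of_lt_left _ (by rw [h4]; exact hsum), h4]

end Over

/-! ### Normal form and uniqueness -/

section Norm

variable [IsAlgClosed k] {ι : Fk →+* FK} (hι : IsConstExt (k := k) (K := K) ι) {I : Type v}
  (B : Module.Basis I k K) {x : Fk} (hx : FF.IsGen k x) {w : Place k Fk}

theorem coe_irreducible_ne_zero {π : w.toValuationSubring} (hπ : Irreducible π) :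
    (π : Fk) ≠ 0 := fun h => hπ.ne_zero (Subtype.ext h)

theorem coe_irreducible_mem_nonunits {π : w.toValuationSubring} (hπ : Irreducible π) :
    (π : Fk) ∈ w.toValuationSubring.nonunits := by
  rw [ValuationSubring.mem_nonunits_iff_exists_mem_maximalIdeal]
  refine ⟨π.2, ?_⟩
  rw [IsLocalRing.mem_maximalIdeal, mem_nonunits_iff]
  exact hπ.not_isUnit

/-- **Normal form**: a nonzero coordinate vector is `π ^ n` times an integral one with a unit
coordinate. -/
theorem exists_normal_form {π : w.toValuationSubring} (hπ : Irreducible π) {f : I →₀ Fk}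
    (hf : f ≠ 0) :
    ∃ (n : ℤ) (g : I →₀ Fk), (∀ i, g i ∈ w.toValuationSubring) ∧
      (∃ i₁, g i₁ ∉ w.toValuationSubring.nonunits) ∧
      coordSum ι B f = ι (π : Fk) ^ n * coordSum ι B g := by
  classical
  have hπ0 := coe_irreducible_ne_zero hπ
  have hne : f.support.Nonempty := Finsupp.support_nonempty_iff.mpr hf
  set n : ℤ := (f.support.image fun i => w.ord (f i)).min' (hne.image _) with hn
  obtain ⟨i₁, hi₁, hi₁n⟩ : ∃ i₁ ∈ f.support, w.ord (f i₁) = n := by
    have := Finset.min'_mem (f.support.image fun i => w.ord (f i)) (hne.image _)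
    rw [Finset.mem_image] at this
    exact this
  have hmin : ∀ i ∈ f.support, n ≤ w.ord (f i) := fun i hi =>
    Finset.min'_le _ _ (Finset.mem_image_of_mem _ hi)
  have hordπ : w.ord ((π : Fk) ^ (-n)) = -n := by
    rw [w.ord_zpow, w.ord_coe_irreducible hπ, mul_one]
  have hpow0 : (π : Fk) ^ (-n) ≠ 0 := zpow_ne_zero _ hπ0
  refine ⟨n, f.mapRange (fun a => (π : Fk) ^ (-n) * a) (mul_zero _), ?_, ⟨i₁, ?_⟩, ?_⟩
  · intro i
    rw [Finsupp.mapRange_apply]
    by_cases h0 : f i = 0
    · rw [h0, mul_zero]; exact zero_mem _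
    · have hi : i ∈ f.support := Finsupp.mem_support_iff.mpr h0
      apply FF.ffp_mem_of_ord_nonneg
      rw [w.ord_mul hpow0 h0, hordπ]
      have := hmin i hi
      omega
  · rw [Finsupp.mapRange_apply, ValuationSubring.mem_nonunits_iff_or]
    have h0 : f i₁ ≠ 0 := Finsupp.mem_support_iff.mp hi₁
    rw [not_or, not_not]
    refine ⟨mul_ne_zero hpow0 h0, ?_⟩
    apply FF.ffp_mem_of_ord_nonneg
    rw [w.ord_inv, w.ord_mul hpow0 h0, hordπ, hi₁n]
    omega
  · rw [coordSum_mul_left, map_zpow₀, ← mul_assoc, ← zpow_add₀ ((map_ne_zero ι).mpr hπ0)]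
    simp

include hι hx in
/-- Two valuation subrings over the same place contain the same elements. -/
theorem mem_of_isOver {V V' : ValuationSubring FK} (hV : IsOver K V w ι) (hV' : IsOver K V' w ι)
    {y : FK} (hy : y ∈ V) : y ∈ V' := by
  classical
  obtain ⟨a, ha, b, hb, hb0, rfl⟩ := hι.gen y
  have hspan : Submodule.span K (ι '' ((⊤ : Submodule k Fk) : Set Fk)) =
      Submodule.span K (Set.range ι) := by
    rw [Submodule.top_coe, Set.image_univ]
  rw [← hspan] at ha hb
  obtain ⟨I, ⟨B⟩⟩ : ∃ I : Type v, Nonempty (Module.Basis I k K) :=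
    ⟨_, ⟨Module.Free.chooseBasis k K⟩⟩
  obtain ⟨fa, -, rfl⟩ := exists_coord_of_mem_span hι B ⊤ ha
  obtain ⟨fb, -, rfl⟩ := exists_coord_of_mem_span hι B ⊤ hb
  by_cases ha0 : fa = 0
  · rw [ha0, map_zero, zero_div]; exact zero_mem _
  have hb0' : fb ≠ 0 := by rintro rfl; exact hb0 (map_zero _)
  obtain ⟨π, hπ⟩ := FF.ffp_exists_irreducible w
  obtain ⟨na, ga, hga, ⟨ia, hia⟩, hea⟩ := exists_normal_form (ι := ι) B hπ ha0
  obtain ⟨nb, gb, hgb, ⟨ib, hib⟩, heb⟩ := exists_normal_form (ι := ι) B hπ hb0'
  set t : FK := ι (π : Fk) with ht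
  have ht0 : t ≠ 0 := (map_ne_zero ι).mpr (coe_irreducible_ne_zero hπ)
  have hy' : coordSum ι B fa / coordSum ι B fb =
      t ^ (na - nb) * (coordSum ι B ga / coordSum ι B gb) := by
    rw [hea, heb, zpow_sub₀ ht0]
    have h1 : t ^ nb ≠ 0 := zpow_ne_zero _ ht0
    have h2 : coordSum ι B gb ≠ 0 := by
      intro h
      rw [heb, h, mul_zero] at hb0
      exact hb0 rfl
    field_simp
  rw [hy'] at hy ⊢
  have hua := valuation_coordSum_eq_one hι B hx hV ga hga ia hia
  have hub := valuation_coordSum_eq_one hι B hx hV gb hgb ib hib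
  have hua' := valuation_coordSum_eq_one hι B hx hV' ga hga ia hia
  have hub' := valuation_coordSum_eq_one hι B hx hV' gb hgb ib hib
  have htV : V.valuation t < 1 :=
    V.mem_nonunits_iff.mp (hV.nonunit _ (coe_irreducible_mem_nonunits hπ))
  have htV' : V'.valuation t < 1 :=
    V'.mem_nonunits_iff.mp (hV'.nonunit _ (coe_irreducible_mem_nonunits hπ))
  rw [← ValuationSubring.valuation_le_one_iff] at hy ⊢
  rw [map_mul, map_div₀, map_zpow₀] at hy ⊢
  rw [hua, hub, div_one, mul_one] at hy
  rw [hua', hub', div_one, mul_one]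
  rcases le_or_gt 0 (na - nb) with hm | hm
  · obtain ⟨j, hj⟩ := Int.eq_ofNat_of_zero_le hm
    rw [hj, zpow_natCast]
    exact pow_le_one' htV'.le j
  · exfalso
    obtain ⟨j, hj⟩ := Int.exists_eq_neg_ofNat hm.le
    have hj0 : j ≠ 0 := by rintro rfl; simp at hj; omega
    rw [hj, zpow_neg, zpow_natCast] at hy
    have hpos : 0 < V.valuation t ^ j := by
      apply pow_pos
      exact (Valuation.pos_iff _).mpr ht0
    have hlt : V.valuation t ^ j < 1 := pow_lt_one' htV hj0
    have := (one_lt_inv₀ hpos).mpr hlt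
    exact absurd hy (not_le.mpr this)

include hι hx in
theorem eq_of_isOver {V V' : ValuationSubring FK} (hV : IsOver K V w ι) (hV' : IsOver K V' w ι) :
    V = V' :=
  SetLike.ext fun _ => ⟨mem_of_isOver hι hx hV hV', mem_of_isOver hι hx hV' hV⟩

end Norm

/-! ### Existence -/

section Exist

variable [IsAlgClosed k] {ι : Fk →+* FK} (hι : IsConstExt (k := k) (K := K) ι)
  {x : Fk} (hx : FF.IsGen k x) (w : Place k Fk)

/-- `O_w` as a `k`-submodule of `Fk`. -/
def ringSub : Submodule k Fk := Subalgebra.toSubmodule (FF.placeSubalgebra w)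

theorem mem_ringSub {a : Fk} : a ∈ ringSub w ↔ a ∈ w.toValuationSubring := Iff.rfl

include hι in
/-- (ND) the image of a uniformiser stays a non-unit in `K[ι O_w]`. -/
theorem mul_ne_one {I : Type v} (B : Module.Basis I k K) {i₀ : I} (hB1 : B i₀ = 1)
    {π : w.toValuationSubring} (hπ : Irreducible π) {r : FK}
    (hr : r ∈ Submodule.span K (ι '' (ringSub w : Set Fk))) : ι (π : Fk) * r ≠ 1 := by
  classical
  obtain ⟨f, hf, rfl⟩ := exists_coord_of_mem_span hι B (ringSub w) hr
  intro h
  have h1 : coordSum ι B (f.mapRange (fun a => (π : Fk) * a) (mul_zero _)) =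
      coordSum ι B (Finsupp.single i₀ 1) := by
    rw [coordSum_mul_left, h, coordSum_single, hB1, map_one, map_one, one_mul]
  have h2 := coordSum_injective hι B h1
  have h3 := DFunLike.congr_fun h2 i₀
  rw [Finsupp.mapRange_apply, Finsupp.single_eq_same] at h3
  apply hπ.not_isUnit
  refine isUnit_iff_exists_inv.mpr ⟨⟨f i₀, hf i₀⟩, ?_⟩
  exact Subtype.ext h3

/-- A `k`-basis of `K` containing `1`. -/
theorem exists_basis_one : ∃ (I : Type v) (B : Module.Basis I k K) (i₀ : I), B i₀ = 1 := by
  have hli : LinearIndepOn k id ({1} : Set K) := by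
    rw [linearIndepOn_singleton_iff]
    exact one_ne_zero
  refine ⟨_, Module.Basis.extend hli, ⟨1, Module.Basis.subset_extend hli rfl⟩, ?_⟩
  rw [Module.Basis.extend_apply_self]

include hι in
/-- **Existence** of a valuation subring `≠ ⊤` of `FK` over `w`. -/
theorem exists_isOver : ∃ V : ValuationSubring FK, IsOver K V w ι ∧ V ≠ ⊤ := by
  classical
  obtain ⟨I, B, i₀, hB1⟩ := exists_basis_one (k := k) (K := K)
  obtain ⟨π, hπ⟩ := FF.ffp_exists_irreducible w
  set T : Set FK := ι '' (ringSub w : Set Fk) with hT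
  have hTT : T * T ⊆ T := by
    rintro _ ⟨_, ⟨a, ha, rfl⟩, _, ⟨b, hb, rfl⟩, rfl⟩
    exact ⟨a * b, mul_mem (s := w.toValuationSubring) ha hb, map_mul ι a b⟩
  have h1T : (1 : FK) ∈ Submodule.span K T :=
    Submodule.subset_span ⟨1, one_mem (w.toValuationSubring), map_one ι⟩
  have hmulT : ∀ y z : FK, y ∈ Submodule.span K T → z ∈ Submodule.span K T →
      y * z ∈ Submodule.span K T := by
    intro y z hy hz
    have := Submodule.mul_mem_mul hy hz
    rw [Submodule.span_mul_span] at this
    exact Submodule.span_mono hTT this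
  set A : Subalgebra K FK := Submodule.toSubalgebra (Submodule.span K T) h1T hmulT with hA
  have hmemA : ∀ y : FK, y ∈ A ↔ y ∈ Submodule.span K T := fun y => Iff.rfl
  have hπA : ι (π : Fk) ∈ A.toSubring :=
    (hmemA _).mpr (Submodule.subset_span ⟨π, π.2, rfl⟩)
  have hne : Ideal.span {(⟨ι (π : Fk), hπA⟩ : A.toSubring)} ≠ ⊤ := by
    intro htop
    rw [Ideal.span_singleton_eq_top] at htop
    obtain ⟨⟨r, hr⟩, hr1⟩ := isUnit_iff_exists_inv.mp htop
    have h2 : ι (π : Fk) * r = 1 := congrArg Subtype.val hr1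
    exact mul_ne_one hι w B hB1 hπ ((hmemA r).mp hr) h2
  obtain ⟨V, hle, hnon⟩ := Ideal.image_subset_nonunits_valuationSubring _ hne
  have hπV : ι (π : Fk) ∈ V.nonunits :=
    hnon ⟨⟨ι (π : Fk), hπA⟩, Ideal.subset_span rfl, rfl⟩
  have hmemV : ∀ a ∈ w.toValuationSubring, ι a ∈ V := fun a ha =>
    hle ((hmemA _).mpr (Submodule.subset_span ⟨a, ha, rfl⟩))
  refine ⟨V, ⟨fun c => hle (A.algebraMap_mem c), hmemV, ?_⟩, ?_⟩
  · intro a ha
    rw [ValuationSubring.mem_nonunits_iff_exists_mem_maximalIdeal] at ha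
    obtain ⟨ha1, ha2⟩ := ha
    rw [hπ.maximalIdeal_eq, Ideal.mem_span_singleton] at ha2
    obtain ⟨b, hb⟩ := ha2
    have hab : a = (π : Fk) * (b : Fk) := congrArg Subtype.val hb
    rw [hab, map_mul, V.mem_nonunits_iff, map_mul]
    have h1 : V.valuation (ι (π : Fk)) < 1 := V.mem_nonunits_iff.mp hπV
    have h2 : V.valuation (ι (b : Fk)) ≤ 1 := (V.valuation_le_one_iff _).mpr (hmemV _ b.2)
    calc V.valuation (ι (π : Fk)) * V.valuation (ι (b : Fk))
        ≤ V.valuation (ι (π : Fk)) * 1 := mul_le_mul_right h2 _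
      _ = V.valuation (ι (π : Fk)) := mul_one _
      _ < 1 := h1
  · intro htop
    have h0 : ι (π : Fk) ≠ 0 := (map_ne_zero ι).mpr (coe_irreducible_ne_zero hπ)
    rw [ValuationSubring.mem_nonunits_iff_or] at hπV
    rcases hπV with h | h
    · exact h0 h
    · exact h (htop ▸ ValuationSubring.mem_top _)

end Exist

/-! ### Places -/

section Places

variable [IsAlgClosed k] [CharZero k] [IsAlgClosed K] [CharZero K] {ι : Fk →+* FK}
  (hι : IsConstExt (k := k) (K := K) ι) {x : Fk} (hx : FF.IsGen k x) {X : FK} (hX : FF.IsGen K X)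

/-- The place `v'` of `FK` lies over the place `w` of `Fk`. -/
def LiesOver (ι : Fk →+* FK) (v' : Place K FK) (w : Place k Fk) : Prop :=
  ∀ a : Fk, a ∈ w.toValuationSubring ↔ ι a ∈ v'.toValuationSubring

theorem isOver_of_liesOver {v' : Place K FK} {w : Place k Fk} (h : LiesOver ι v' w) :
    IsOver K v'.toValuationSubring w ι := by
  refine ⟨v'.algebraMap_mem', fun a ha => (h a).mp ha, ?_⟩
  intro a ha
  rw [ValuationSubring.mem_nonunits_iff_or] at ha ⊢
  rcases ha with rfl | ha
  · exact Or.inl (map_zero ι)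
  · right
    rw [← map_inv₀, ← h]
    exact ha

include hX in
/-- A valuation subring `≠ ⊤` over `w` is (the ring of) a place lying over `w`. -/
theorem exists_place_of_isOver {w : Place k Fk} {V : ValuationSubring FK} (hV : IsOver K V w ι)
    (hne : V ≠ ⊤) : ∃ v' : Place K FK, v'.toValuationSubring = V ∧ LiesOver ι v' w := by
  classical
  obtain ⟨π, hπ⟩ := FF.ffp_exists_irreducible w
  have hπ0 : (π : Fk) ≠ 0 := coe_irreducible_ne_zero hπ
  have ht0 : ι (π : Fk) ≠ 0 := (map_ne_zero ι).mpr hπ0
  have htV : ι (π : Fk) ∈ V := hV.mem _ π.2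
  have htnon : ι (π : Fk) ∈ V.nonunits := hV.nonunit _ (coe_irreducible_mem_nonunits hπ)
  have htinv : (ι (π : Fk))⁻¹ ∉ V := by
    rw [ValuationSubring.mem_nonunits_iff_or] at htnon
    exact htnon.resolve_left ht0
  have httr : Transcendental K (ι (π : Fk)) := by
    intro halg
    obtain ⟨c, hc⟩ := FF.eq_algebraMap_of_isAlgebraic halg
    apply htinv
    rw [hc, ← map_inv₀]
    exact hV.const _
  have hgen : FF.IsGen K (ι (π : Fk)) := hX.of_transcendental httr
  have hDed := FF.isDedekindDomain_intRing hgen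
  have hFrac := FF.isFractionRing_intRing hgen
  have hpoly : ∀ a : FF.polyRing K (ι (π : Fk)),
      algebraMap (FF.polyRing K (ι (π : Fk))) FK a ∈ V := by
    intro a
    let VS : Subalgebra K FK := { V.toSubring with algebraMap_mem' := hV.const }
    have h1 : Algebra.adjoin K {ι (π : Fk)} ≤ VS :=
      Algebra.adjoin_le (Set.singleton_subset_iff.mpr (show ι (π : Fk) ∈ VS from htV))
    exact h1 a.2
  have hB : ∀ b : FF.intRing K (ι (π : Fk)),
      algebraMap (FF.intRing K (ι (π : Fk))) FK b ∈ V := by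
    intro b
    exact Fermat.Agent.RED.DESC.PlaceExtend27.mem_of_monic_root V _ hpoly b.2
  have hPID := Fermat.Agent.RED.DESC.PlaceExtend27.isPrincipalIdealRing_of_dedekind_le V hB hne
  refine ⟨⟨V, hV.const, hne, hPID⟩, rfl, ?_⟩
  intro a
  refine ⟨fun ha => hV.mem a ha, fun ha => ?_⟩
  by_contra hna
  have h1 : a⁻¹ ∈ w.toValuationSubring.nonunits := by
    rw [ValuationSubring.mem_nonunits_iff_or, inv_inv]
    exact Or.inr hna
  have h2 := hV.nonunit _ h1
  rw [ValuationSubring.mem_nonunits_iff_or, map_inv₀, inv_inv] at h2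
  rcases h2 with h2 | h2
  · have ha0 : a = 0 := by
      have := inv_eq_zero.mp h2
      exact (map_eq_zero ι).mp this
    exact hna (ha0 ▸ zero_mem _)
  · exact h2 ha

include hι hX in
/-- **Existence of the extension.** -/
theorem exists_liesOver (w : Place k Fk) : ∃ v' : Place K FK, LiesOver ι v' w := by
  obtain ⟨V, hV, hne⟩ := exists_isOver hι w
  obtain ⟨v', -, h⟩ := exists_place_of_isOver hX hV hne
  exact ⟨v', h⟩

include hι hx in
/-- **Uniqueness of the extension.** -/
theorem liesOver_unique {v' v'' : Place K FK} {w : Place k Fk} (h' : LiesOver ι v' w)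
    (h'' : LiesOver ι v'' w) : v' = v'' :=
  Place.ext (eq_of_isOver hι hx (isOver_of_liesOver h') (isOver_of_liesOver h''))

/-- A place of `FK` lies over at most one place of `Fk`. -/
theorem liesOver_injective {v' : Place K FK} {w w' : Place k Fk} (h : LiesOver ι v' w)
    (h' : LiesOver ι v' w') : w = w' :=
  Place.ext (SetLike.ext fun a => (h a).trans (h' a).symm)

end Places

/-! ### Orders, characterisation, `extPlace` -/

section Ord

variable [IsAlgClosed k] [CharZero k] [IsAlgClosed K] [CharZero K] {ι : Fk →+* FK}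
  (hι : IsConstExt (k := k) (K := K) ι) {x : Fk} (hx : FF.IsGen k x) {X : FK} (hX : FF.IsGen K X)

theorem ord_eq_zero_of_valuation_eq_one (v' : Place K FK) {u : FK}
    (hu : v'.toValuationSubring.valuation u = 1) : v'.ord u = 0 := by
  have h1 : u ∈ v'.toValuationSubring :=
    (v'.toValuationSubring.valuation_le_one_iff u).mp hu.le
  have h2 : u⁻¹ ∈ v'.toValuationSubring := by
    rw [← ValuationSubring.valuation_le_one_iff, map_inv₀, hu, inv_one]
  have h3 := FF.ffp_ord_nonneg_of_mem v' h1
  have h4 := FF.ffp_ord_nonneg_of_mem v' h2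
  rw [v'.ord_inv] at h4
  omega

include hι hx in
/-- The image of a uniformiser of `w` is a uniformiser of any place over `w`. -/
theorem ord_uniformiser {v' : Place K FK} {w : Place k Fk} (h : LiesOver ι v' w)
    {π : w.toValuationSubring} (hπ : Irreducible π) : v'.ord (ι (π : Fk)) = 1 := by
  classical
  have hV := isOver_of_liesOver h
  set t : FK := ι (π : Fk) with ht
  have ht0 : t ≠ 0 := (map_ne_zero ι).mpr (coe_irreducible_ne_zero hπ)
  have htpos : 0 < v'.ord t := by
    have h1 : t ∈ v'.toValuationSubring.nonunits :=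
      hV.nonunit _ (coe_irreducible_mem_nonunits hπ)
    rw [ValuationSubring.mem_nonunits_iff_or] at h1
    have h2 : t⁻¹ ∉ v'.toValuationSubring := h1.resolve_left ht0
    have h3 := FF.ffp_ord_nonneg_of_mem v' (hV.mem _ π.2)
    rcases h3.lt_or_eq with h4 | h4
    · exact h4
    · exfalso
      apply h2
      apply FF.ffp_mem_of_ord_nonneg
      rw [v'.ord_inv, ← h4]
      simp
  obtain ⟨y, hy0, hy1⟩ := LaurentPlace.exists_ord_eq_one v'
  obtain ⟨a, ha, b, hb, hb0, rfl⟩ := hι.gen y
  have hspan : Submodule.span K (ι '' ((⊤ : Submodule k Fk) : Set Fk)) =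
      Submodule.span K (Set.range ι) := by
    rw [Submodule.top_coe, Set.image_univ]
  rw [← hspan] at ha hb
  obtain ⟨I, ⟨B⟩⟩ : ∃ I : Type v, Nonempty (Module.Basis I k K) :=
    ⟨_, ⟨Module.Free.chooseBasis k K⟩⟩
  obtain ⟨fa, -, rfl⟩ := exists_coord_of_mem_span hι B ⊤ ha
  obtain ⟨fb, -, rfl⟩ := exists_coord_of_mem_span hι B ⊤ hb
  have ha0 : fa ≠ 0 := by
    rintro rfl
    rw [map_zero, zero_div] at hy0
    exact hy0 rfl
  have hb0' : fb ≠ 0 := by rintro rfl; exact hb0 (map_zero _)
  obtain ⟨na, ga, hga, ⟨ia, hia⟩, hea⟩ := exists_normal_form (ι := ι) B hπ ha0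
  obtain ⟨nb, gb, hgb, ⟨ib, hib⟩, heb⟩ := exists_normal_form (ι := ι) B hπ hb0'
  have hua := ord_eq_zero_of_valuation_eq_one v'
    (valuation_coordSum_eq_one hι B hx hV ga hga ia hia)
  have hub := ord_eq_zero_of_valuation_eq_one v'
    (valuation_coordSum_eq_one hι B hx hV gb hgb ib hib)
  have hga0 : coordSum ι B ga ≠ 0 := by
    intro h0
    have := valuation_coordSum_eq_one hι B hx hV ga hga ia hia
    rw [h0, map_zero] at this
    exact zero_ne_one this
  have hgb0 : coordSum ι B gb ≠ 0 := by
    intro h0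
    have := valuation_coordSum_eq_one hι B hx hV gb hgb ib hib
    rw [h0, map_zero] at this
    exact zero_ne_one this
  have hord : v'.ord (coordSum ι B fa / coordSum ι B fb) = (na - nb) * v'.ord t := by
    rw [hea, heb, div_eq_mul_inv, v'.ord_mul (mul_ne_zero (zpow_ne_zero _ ht0) hga0)
      (inv_ne_zero (mul_ne_zero (zpow_ne_zero _ ht0) hgb0)), v'.ord_inv,
      v'.ord_mul (zpow_ne_zero _ ht0) hga0, v'.ord_mul (zpow_ne_zero _ ht0) hgb0,
      v'.ord_zpow, v'.ord_zpow, hua, hub]
    ring
  rw [hord] at hy1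
  exact Int.eq_one_of_mul_eq_one_left htpos.le hy1

include hι hx in
/-- **Orders are preserved.** -/
theorem ord_of_liesOver {v' : Place K FK} {w : Place k Fk} (h : LiesOver ι v' w) (f : Fk) :
    v'.ord (ι f) = w.ord f := by
  rcases eq_or_ne f 0 with rfl | hf
  · simp
  obtain ⟨π, hπ⟩ := FF.ffp_exists_irreducible w
  have hπ0 : (π : Fk) ≠ 0 := coe_irreducible_ne_zero hπ
  have ht0 : ι (π : Fk) ≠ 0 := (map_ne_zero ι).mpr hπ0
  obtain ⟨u, hu⟩ := w.exists_unit_mul_zpow hf hπ
  have hu0 : ((u : w.toValuationSubring) : Fk) ≠ 0 := by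
    simp [ne_eq, ZeroMemClass.coe_eq_zero]
  have hu1 : ι ((u : w.toValuationSubring) : Fk) ∈ v'.toValuationSubring :=
    (h _).mp (u : w.toValuationSubring).2
  have hu2 : (ι ((u : w.toValuationSubring) : Fk))⁻¹ ∈ v'.toValuationSubring := by
    have h1 : (((u⁻¹ : w.toValuationSubringˣ) : w.toValuationSubring) : Fk) =
        ((u : w.toValuationSubring) : Fk)⁻¹ := by
      have h2 : ((u : w.toValuationSubring) : Fk) *
          (((u⁻¹ : w.toValuationSubringˣ) : w.toValuationSubring) : Fk) = 1 := by
        exact congrArg (Subtype.val : w.toValuationSubring → Fk) u.mul_inv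
      exact (inv_eq_of_mul_eq_one_right h2).symm
    rw [← map_inv₀, ← h1]
    exact (h _).mp ((u⁻¹ : w.toValuationSubringˣ) : w.toValuationSubring).2
  have hordu : v'.ord (ι ((u : w.toValuationSubring) : Fk)) = 0 := by
    have h1 := FF.ffp_ord_nonneg_of_mem v' hu1
    have h2 := FF.ffp_ord_nonneg_of_mem v' hu2
    rw [v'.ord_inv] at h2
    omega
  have hιf : ι f = ι ((u : w.toValuationSubring) : Fk) * (ι (π : Fk)) ^ (w.ord f) := by
    conv_lhs => rw [hu]
    rw [map_mul, map_zpow₀]
  rw [hιf, v'.ord_mul ((map_ne_zero ι).mpr hu0) (zpow_ne_zero _ ht0), hordu, zero_add,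
    v'.ord_zpow, ord_uniformiser hι hx h hπ, mul_one]

include hι hx in
/-- **Characterisation of the extended places.** -/
theorem exists_liesOver_iff (v' : Place K FK) :
    (∃ w : Place k Fk, LiesOver ι v' w) ↔ ∃ f : Fk, f ≠ 0 ∧ 0 < v'.ord (ι f) := by
  constructor
  · rintro ⟨w, h⟩
    obtain ⟨π, hπ⟩ := FF.ffp_exists_irreducible w
    refine ⟨π, coe_irreducible_ne_zero hπ, ?_⟩
    rw [ord_uniformiser hι hx h hπ]
    exact one_pos
  · rintro ⟨f, hf0, hf⟩
    set O : ValuationSubring Fk := v'.toValuationSubring.comap ι with hO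
    have hmemO : ∀ a : Fk, a ∈ O ↔ ι a ∈ v'.toValuationSubring := fun a => Iff.rfl
    have hconst : ∀ c : k, algebraMap k Fk c ∈ O := fun c => by
      rw [hmemO, hι.comm]
      exact v'.algebraMap_mem' _
    have hfO : f ∈ O := (hmemO f).mpr (FF.ffp_mem_of_ord_nonneg v' hf.le)
    have hfinv : f⁻¹ ∉ O := by
      rw [hmemO, map_inv₀]
      intro hmem
      have := FF.ffp_ord_nonneg_of_mem v' hmem
      rw [v'.ord_inv] at this
      omega
    have hOtop : O ≠ ⊤ := fun h => hfinv (h ▸ ValuationSubring.mem_top _)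
    have hftr : Transcendental k f := by
      intro halg
      obtain ⟨c, hc⟩ := FF.eq_algebraMap_of_isAlgebraic halg
      rw [hc, hι.comm, FF.ffp_ord_algebraMap] at hf
      exact lt_irrefl _ hf
    have hgen : FF.IsGen k f := hx.of_transcendental hftr
    have hDed := FF.isDedekindDomain_intRing hgen
    have hFrac := FF.isFractionRing_intRing hgen
    have hpoly : ∀ a : FF.polyRing k f, algebraMap (FF.polyRing k f) Fk a ∈ O := by
      intro a
      let OS : Subalgebra k Fk := { O.toSubring with algebraMap_mem' := hconst }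
      have h1 : Algebra.adjoin k {f} ≤ OS :=
        Algebra.adjoin_le (Set.singleton_subset_iff.mpr (show f ∈ OS from hfO))
      exact h1 a.2
    have hB : ∀ b : FF.intRing k f, algebraMap (FF.intRing k f) Fk b ∈ O := by
      intro b
      exact Fermat.Agent.RED.DESC.PlaceExtend27.mem_of_monic_root O _ hpoly b.2
    have hPID :=
      Fermat.Agent.RED.DESC.PlaceExtend27.isPrincipalIdealRing_of_dedekind_le O hB hOtop
    exact ⟨⟨O, hconst, hOtop, hPID⟩, fun a => Iff.rfl⟩

variable (ι) in
/-- **The extension of a place** of `Fk` to `FK`. -/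
def extPlace (hι : IsConstExt (k := k) (K := K) ι) (hX : FF.IsGen K X) (w : Place k Fk) :
    Place K FK :=
  Classical.choose (exists_liesOver hι hX w)

theorem extPlace_liesOver (w : Place k Fk) : LiesOver ι (extPlace ι hι hX w) w :=
  Classical.choose_spec (exists_liesOver hι hX w)

include hx in
theorem ord_extPlace (w : Place k Fk) (f : Fk) : (extPlace ι hι hX w).ord (ι f) = w.ord f :=
  ord_of_liesOver hι hx (extPlace_liesOver hι hX w) f

theorem extPlace_injective : Function.Injective (extPlace ι hι hX) := fun w w' h =>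
  liesOver_injective (extPlace_liesOver hι hX w) (h ▸ extPlace_liesOver hι hX w')

include hx in
theorem eq_extPlace_of_liesOver {v' : Place K FK} {w : Place k Fk} (h : LiesOver ι v' w) :
    v' = extPlace ι hι hX w :=
  liesOver_unique hι hx h (extPlace_liesOver hι hX w)

include hx in
theorem mem_range_extPlace_iff (v' : Place K FK) :
    v' ∈ Set.range (extPlace ι hι hX) ↔ ∃ f : Fk, f ≠ 0 ∧ 0 < v'.ord (ι f) := by
  rw [← exists_liesOver_iff hι hx]
  constructor
  · rintro ⟨w, rfl⟩
    exact ⟨w, extPlace_liesOver hι hX w⟩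
  · rintro ⟨w, h⟩
    exact ⟨w, (eq_extPlace_of_liesOver hι hx hX h).symm⟩

end Ord

end

end Fermat.Agent.J.DESC.ConstExt24
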