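/-
Program J (S30), chapter J2 DESCENT (helper24): **(D0)** the concrete constant field extension
`laurentBaseChange k F₀ → laurentBaseChange K F₀` (coefficientwise base change along `k → K`):
it satisfies `ConstExt24.IsConstExt` (linear disjointness is trivial coefficientwise), and the
q-expansion principle `y ∈ range bc ↔ all coefficients of y lie in k`.
-/
import Mathlib
import Fermat.Prelude.Def_ModularCurve_LaurentCoeff
import Fermat.Agent.J.DESC.ConstExt24

set_option autoImplicit false
set_option linter.unusedSectionVars false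
set_option linter.style.longLine false

namespace Fermat.Agent.J.DESC.LaurentExt24

open ModularCurve HahnSeries Fermat.Agent.J.DESC.ConstExt24

noncomputable section

universe u v

variable {k : Type u} {K : Type v} [Field k] [Field K] [Algebra ℚ k] [Algebra ℚ K] [Algebra k K]
  (F₀ : IntermediateField ℚ (LaurentSeries ℚ))

/-- Coefficientwise base change of Laurent series. -/
abbrev bcS : LaurentSeries k →+* LaurentSeries K := coeffMap (algebraMap k K)

theorem bcS_injective : Function.Injective (bcS (k := k) (K := K)) := by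
  intro y z h
  ext n
  have := congrArg (fun s => HahnSeries.coeff s n) h
  simpa using this

theorem bcS_algebraMap (c : k) :
    bcS (K := K) (algebraMap k (LaurentSeries k) c) =
      algebraMap K (LaurentSeries K) (algebraMap k K c) := by
  rw [algebraMap_laurentSeries_eq_single, algebraMap_laurentSeries_eq_single, coeffMap_single]

theorem bcS_coeffEmb (z : LaurentSeries ℚ) : bcS (K := K) (coeffEmb k z) = coeffEmb K z := by
  rw [coeffEmb, coeffEmb, coeffMap_coeffMap]
  exact coeffMap_congr (Subsingleton.elim _ _) z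

theorem bcS_mem {y : LaurentSeries k} (hy : y ∈ laurentBaseChange k F₀) :
    bcS (K := K) y ∈ laurentBaseChange K F₀ := by
  rw [mem_laurentBaseChange_iff] at hy
  induction hy using Subfield.closure_induction with
  | mem y hy =>
      rcases hy with ⟨a, rfl⟩ | ⟨z, hz, rfl⟩
      · rw [bcS_algebraMap]
        exact (laurentBaseChange K F₀).algebraMap_mem _
      · rw [bcS_coeffEmb]
        exact coeffEmb_mem_laurentBaseChange K hz
  | one => simp
  | add x y _ _ hx hy => simpa using add_mem hx hy
  | neg x _ hx => simpa using neg_mem hx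
  | inv x _ hx => simpa using inv_mem hx
  | mul x y _ _ hx hy => simpa using mul_mem hx hy

/-- **Base change of functions** `Fk → FK`. -/
def bc : ↥(laurentBaseChange k F₀) →+* ↥(laurentBaseChange K F₀) :=
  ((bcS (k := k) (K := K)).comp (laurentBaseChange k F₀).toSubring.subtype).codRestrict
    (laurentBaseChange K F₀).toSubring fun y => bcS_mem F₀ y.2

@[simp] theorem coe_bc (y : ↥(laurentBaseChange k F₀)) :
    ((bc (K := K) F₀ y : ↥(laurentBaseChange K F₀)) : LaurentSeries K) =
      bcS (y : LaurentSeries k) := rfl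

theorem bc_injective : Function.Injective (bc (k := k) (K := K) F₀) :=
  (bc F₀).injective

theorem bc_algebraMap (c : k) :
    bc (K := K) F₀ (algebraMap k ↥(laurentBaseChange k F₀) c) =
      algebraMap K ↥(laurentBaseChange K F₀) (algebraMap k K c) :=
  Subtype.ext (bcS_algebraMap c)

/-! ### Linear disjointness, coefficientwise -/

theorem coeff_algebraMap_mul (c : K) (y : LaurentSeries K) (n : ℤ) :
    (algebraMap K (LaurentSeries K) c * y).coeff n = c * y.coeff n := by
  rw [algebraMap_laurentSeries_eq_single, HahnSeries.coeff_single_zero_mul]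

/-- (LD) for Laurent series. -/
theorem ld_series {I : Type v} (B : I → K) (hB : LinearIndependent k B)
    (f : I →₀ LaurentSeries k)
    (h : (f.sum fun i y => algebraMap K (LaurentSeries K) (B i) * bcS y) = 0) : f = 0 := by
  classical
  ext i n
  have hn : (f.sum fun i y => B i * algebraMap k K (y.coeff n)) = 0 := by
    have := congrArg (fun s => HahnSeries.coeff s n) h
    simp only [Finsupp.sum, HahnSeries.coeff_zero] at this
    rw [HahnSeries.coeff_sum] at this
    simp only [coeff_algebraMap_mul, coeffMap_coeff] at this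
    exact this
  set c : I →₀ k := f.mapRange (fun y => y.coeff n) (by simp) with hc
  have hlc : Finsupp.linearCombination k B c = 0 := by
    rw [Finsupp.linearCombination_apply, hc, Finsupp.sum_mapRange_index (by intro i; simp)]
    rw [← hn]
    refine Finsupp.sum_congr fun i _ => ?_
    rw [Algebra.smul_def, mul_comm]
  have hc0 := linearIndependent_iff.mp hB c hlc
  have := DFunLike.congr_fun hc0 i
  simpa [hc] using this

/-! ### The `IsConstExt` instance -/

/-- (LD) for Laurent series, `coordSum` form. -/
theorem ld_bcS {I : Type v} (B : I → K) (hB : LinearIndependent k B)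
    (f : I →₀ LaurentSeries k) (h : coordSum (bcS (k := k) (K := K)) B f = 0) : f = 0 := by
  rw [coordSum_apply] at h
  exact ld_series B hB f h

theorem coe_coordSum {I : Type v} (B : I → K) (f : I →₀ ↥(laurentBaseChange k F₀)) :
    ((coordSum (bc (K := K) F₀) B f : ↥(laurentBaseChange K F₀)) : LaurentSeries K) =
      coordSum (bcS (k := k) (K := K)) B
        (f.mapRange (fun y : ↥(laurentBaseChange k F₀) => (y : LaurentSeries k)) rfl) := by
  rw [coordSum_apply, coordSum_apply, Finsupp.sum_mapRange_index (by intro i; simp)]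
  rw [Finsupp.sum, Finsupp.sum]
  show (laurentBaseChange K F₀).val (∑ a ∈ f.support, _) = _
  rw [map_sum]
  rfl

theorem ld_bc {I : Type v} (B : I → K) (hB : LinearIndependent k B)
    (f : I →₀ ↥(laurentBaseChange k F₀)) (h : coordSum (bc (K := K) F₀) B f = 0) : f = 0 := by
  have h1 := congrArg (fun y : ↥(laurentBaseChange K F₀) => (y : LaurentSeries K)) h
  simp only [coe_coordSum, ZeroMemClass.coe_zero] at h1
  have h2 := ld_bcS B hB _ h1
  apply Finsupp.ext
  intro i
  apply Subtype.ext
  have := DFunLike.congr_fun h2 i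
  simpa using this

/-- The `K`-span of `range bc` is closed under multiplication. -/
theorem span_range_bc_mul {a b : ↥(laurentBaseChange K F₀)}
    (ha : a ∈ Submodule.span K (Set.range (bc (k := k) (K := K) F₀)))
    (hb : b ∈ Submodule.span K (Set.range (bc (k := k) (K := K) F₀))) :
    a * b ∈ Submodule.span K (Set.range (bc (k := k) (K := K) F₀)) := by
  induction ha using Submodule.span_induction with
  | mem x hx =>
    obtain ⟨x0, rfl⟩ := hx
    induction hb using Submodule.span_induction with
    | mem y hy =>
      obtain ⟨y0, rfl⟩ := hy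
      rw [← map_mul]
      exact Submodule.subset_span ⟨_, rfl⟩
    | zero => simp
    | add y z _ _ hy hz => rw [mul_add]; exact add_mem hy hz
    | smul c y _ hy => rw [mul_smul_comm]; exact Submodule.smul_mem _ _ hy
  | zero => simp
  | add x y _ _ hx hy => rw [add_mul]; exact add_mem hx hy
  | smul c x _ hx => rw [smul_mul_assoc]; exact Submodule.smul_mem _ _ hx

theorem one_mem_span_range_bc :
    (1 : ↥(laurentBaseChange K F₀)) ∈ Submodule.span K (Set.range (bc (k := k) (K := K) F₀)) :=
  Submodule.subset_span ⟨1, map_one _⟩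

/-- Elements of the `K`-algebra generated by `F₀` come from the span of `range bc`. -/
theorem exists_of_mem_adjoin {r : LaurentSeries K}
    (hr : r ∈ Algebra.adjoin K (⇑(coeffEmb K) '' (F₀ : Set (LaurentSeries ℚ)))) :
    ∃ a ∈ Submodule.span K (Set.range (bc (k := k) (K := K) F₀)),
      ((a : ↥(laurentBaseChange K F₀)) : LaurentSeries K) = r := by
  induction hr using Algebra.adjoin_induction with
  | mem x hx =>
    obtain ⟨z, hz, rfl⟩ := hx
    refine ⟨bc F₀ ⟨coeffEmb k z, coeffEmb_mem_laurentBaseChange k hz⟩,
      Submodule.subset_span ⟨_, rfl⟩, ?_⟩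
    rw [coe_bc]
    exact bcS_coeffEmb z
  | algebraMap c =>
    refine ⟨algebraMap K _ c, ?_, rfl⟩
    rw [Algebra.algebraMap_eq_smul_one]
    exact Submodule.smul_mem _ _ (one_mem_span_range_bc F₀)
  | add x y _ _ hx hy =>
    obtain ⟨a, ha, rfl⟩ := hx
    obtain ⟨b, hb, rfl⟩ := hy
    exact ⟨a + b, add_mem ha hb, rfl⟩
  | mul x y _ _ hx hy =>
    obtain ⟨a, ha, rfl⟩ := hx
    obtain ⟨b, hb, rfl⟩ := hy
    exact ⟨a * b, span_range_bc_mul F₀ ha hb, rfl⟩

theorem gen_bc (y : ↥(laurentBaseChange K F₀)) :
    ∃ a ∈ Submodule.span K (Set.range (bc (k := k) (K := K) F₀)),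
      ∃ b ∈ Submodule.span K (Set.range (bc (k := k) (K := K) F₀)), b ≠ 0 ∧ y = a / b := by
  have hy : (y : LaurentSeries K) ∈
      IntermediateField.adjoin K (⇑(coeffEmb K) '' (F₀ : Set (LaurentSeries ℚ))) := y.2
  rw [IntermediateField.mem_adjoin_iff_div] at hy
  obtain ⟨r, hr, s, hs, hrs⟩ := hy
  obtain ⟨a, ha, har⟩ := exists_of_mem_adjoin (k := k) F₀ hr
  obtain ⟨b, hb, hbs⟩ := exists_of_mem_adjoin (k := k) F₀ hs
  by_cases hs0 : s = 0
  · refine ⟨0, zero_mem _, 1, one_mem_span_range_bc F₀, one_ne_zero, ?_⟩
    apply Subtype.ext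
    rw [hrs, hs0, div_zero]
    simp
  · refine ⟨a, ha, b, hb, ?_, ?_⟩
    · intro hb0
      apply hs0
      rw [← hbs, hb0]
      rfl
    · apply Subtype.ext
      rw [hrs, ← har, ← hbs]
      simp

/-- **The base change is a constant field extension.** -/
theorem isConstExt_bc :
    IsConstExt (k := k) (K := K) (bc (k := k) (K := K) F₀) where
  comm := bc_algebraMap F₀
  ld := fun _ B hB f h => ld_bc F₀ B hB f h
  gen := gen_bc F₀

/-! ### The q-expansion principle -/

/-- A Laurent series over `K` all of whose coefficients lie in `k` is a base change. -/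
theorem exists_bcS_eq {y : LaurentSeries K}
    (h : ∀ n, y.coeff n ∈ Set.range (algebraMap k K)) : ∃ y₀ : LaurentSeries k, bcS y₀ = y := by
  classical
  choose c hc using h
  have hsupp : Function.support c ⊆ y.support := by
    intro n hn
    simp only [Function.mem_support, ne_eq, HahnSeries.mem_support] at hn ⊢
    intro h0
    apply hn
    apply (algebraMap k K).injective
    rw [hc, h0, map_zero]
  refine ⟨⟨c, y.isPWO_support.mono hsupp⟩, ?_⟩
  ext n
  simp [hc]

theorem coeff_bcS (y : LaurentSeries k) (n : ℤ) :
    (bcS (K := K) y).coeff n = algebraMap k K (y.coeff n) := by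
  simp

/-- **q-expansion principle**: a function of `FK` is a base change from `Fk` iff all its
`q`-coefficients lie in `k`. -/
theorem mem_range_bc_iff (y : ↥(laurentBaseChange K F₀)) :
    y ∈ Set.range (bc (k := k) (K := K) F₀) ↔
      ∀ n, (y : LaurentSeries K).coeff n ∈ Set.range (algebraMap k K) := by
  classical
  constructor
  · rintro ⟨y₀, rfl⟩ n
    exact ⟨(y₀ : LaurentSeries k).coeff n, (coeff_bcS _ n).symm⟩
  · intro h
    obtain ⟨y₀, hy₀⟩ := exists_bcS_eq h
    suffices hmem : y₀ ∈ laurentBaseChange k F₀ from ⟨⟨y₀, hmem⟩, Subtype.ext hy₀⟩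
    have hι := isConstExt_bc (k := k) (K := K) F₀
    obtain ⟨a, ha, b, hb, hb0, hyab⟩ := hι.gen y
    let B := Module.Free.chooseBasis k K
    rw [← Set.image_univ, ← Submodule.top_coe (R := k)] at ha hb
    obtain ⟨fa, -, hfa⟩ := exists_coord_of_mem_span hι B ⊤ ha
    obtain ⟨fb, -, hfb⟩ := exists_coord_of_mem_span hι B ⊤ hb
    have hfb0 : fb ≠ 0 := by
      rintro rfl
      exact hb0 (by rw [← hfb, map_zero])
    obtain ⟨i, hi⟩ : ∃ i, fb i ≠ 0 := by
      by_contra hcon
      push Not at hcon
      exact hfb0 (Finsupp.ext hcon)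
    set fa' : Module.Free.ChooseBasisIndex k K →₀ LaurentSeries k :=
      fa.mapRange (fun y : ↥(laurentBaseChange k F₀) => (y : LaurentSeries k)) rfl with hfa'
    set fb' : Module.Free.ChooseBasisIndex k K →₀ LaurentSeries k :=
      fb.mapRange (fun y : ↥(laurentBaseChange k F₀) => (y : LaurentSeries k)) rfl with hfb'
    have hyb : y * b = a := by
      rw [hyab, div_mul_cancel₀ _ hb0]
    have h1 : bcS y₀ * coordSum (bcS (k := k) (K := K)) B fb' =
        coordSum (bcS (k := k) (K := K)) B fa' := by
      rw [hfa', hfb', ← coe_coordSum, ← coe_coordSum, hfa, hfb, hy₀, ← hyb]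
      rfl
    rw [← coordSum_mul_left] at h1
    have h2 : coordSum (bcS (k := k) (K := K)) B
        (fb'.mapRange (fun a => y₀ * a) (mul_zero y₀) - fa') = 0 := by
      rw [map_sub, h1, sub_self]
    have h3 := ld_bcS (⇑B) B.linearIndependent _ h2
    have h4 := DFunLike.congr_fun h3 i
    simp only [Finsupp.coe_sub, Pi.sub_apply, Finsupp.mapRange_apply, Finsupp.coe_zero,
      Pi.zero_apply, hfa', hfb', sub_eq_zero] at h4
    have hne : ((fb i : ↥(laurentBaseChange k F₀)) : LaurentSeries k) ≠ 0 := by
      intro h0
      exact hi (Subtype.ext h0)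
    have : y₀ = (fa i : LaurentSeries k) / (fb i : LaurentSeries k) := by
      rw [eq_div_iff hne, h4]
    rw [this]
    exact div_mem (fa i).2 (fb i).2

end

end Fermat.Agent.J.DESC.LaurentExt24
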