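/-
Program J (S30), chapter J2 DESCENT (helper24): **(D2)** the concrete Galois action.
For fields `ℚ ⊆ k ⊆ K` the group `Aut(K/k)` acts semilinearly on `FK = laurentBaseChange K F₀`
(coefficientwise, through the Prelude's `arithmeticGalois`), fixes the base change `bc Fk`
pointwise, and — for `k`, `K` algebraically closed — the fixed functions are exactly `bc Fk`
(q-expansion principle + `Aut(K/k)`-invariants of `K` are `k`).
For `F₀ = modularFunctionFieldFull N`: `bc (j_k) = j_K`, and both are generators (`FieldL25`).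
-/
import Mathlib
import Fermat.Prelude.Def_ModularCurve_ArithmeticGalois
import Fermat.Agent.J.DESC.LaurentExt24
import Fermat.Agent.ES.GAL.AutTranscendental10
import Fermat.Agent.ES.KUM.FieldL25

set_option autoImplicit false
set_option linter.unusedSectionVars false
set_option linter.style.longLine false

namespace Fermat.Agent.J.DESC.DescentC24

open ModularCurve HahnSeries AlgebraicCurve Fermat.Agent.X0
open Fermat.Agent.J.DESC.ConstExt24 Fermat.Agent.J.DESC.LaurentExt24

noncomputable section

universe u v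

section Generic

variable {k : Type u} {K : Type v} [Field k] [Field K] [Algebra ℚ k] [Algebra ℚ K] [Algebra k K]
  (F₀ : IntermediateField ℚ (LaurentSeries ℚ))

/-- Restriction of scalars `Aut(K/k) → Aut(K/ℚ)` as a monoid hom. -/
def restrictQ : (K ≃ₐ[k] K) →* (K ≃ₐ[ℚ] K) where
  toFun σ := σ.restrictScalars ℚ
  map_one' := rfl
  map_mul' _ _ := rfl

@[simp] theorem restrictQ_apply (σ : K ≃ₐ[k] K) (c : K) : restrictQ σ c = σ c := rfl

/-- **The semilinear action of `Aut(K/k)` on `FK`.** -/
def rho : (K ≃ₐ[k] K) →* SemilinearAut K ↥(laurentBaseChange K F₀) :=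
  (arithmeticGalois F₀).comp restrictQ

theorem rho_apply (σ : K ≃ₐ[k] K) : rho F₀ σ = arithmeticGalois F₀ (restrictQ σ) := rfl

theorem baseAut_rho (σ : K ≃ₐ[k] K) (c : K) : SemilinearAut.baseAut (rho F₀ σ) c = σ c := rfl

theorem coe_rho_smul (σ : K ≃ₐ[k] K) (y : ↥(laurentBaseChange K F₀)) :
    ((rho F₀ σ • y : ↥(laurentBaseChange K F₀)) : LaurentSeries K) =
      coeffMap ((restrictQ σ : K ≃ₐ[ℚ] K) : K →+* K) (y : LaurentSeries K) := rfl

theorem coeff_rho_smul (σ : K ≃ₐ[k] K) (y : ↥(laurentBaseChange K F₀)) (n : ℤ) :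
    ((rho F₀ σ • y : ↥(laurentBaseChange K F₀)) : LaurentSeries K).coeff n =
      σ ((y : LaurentSeries K).coeff n) := by
  rw [coe_rho_smul, coeffMap_coeff]
  rfl

/-- `Aut(K/k)` fixes the base change pointwise. -/
theorem rho_smul_bc (σ : K ≃ₐ[k] K) (f : ↥(laurentBaseChange k F₀)) :
    rho F₀ σ • bc (K := K) F₀ f = bc (K := K) F₀ f := by
  apply Subtype.ext
  ext n
  rw [coeff_rho_smul, coe_bc, coeff_bcS, σ.commutes]

/-- **(INV)**: the functions of `FK` fixed by `Aut(K/k)` are the base changes from `Fk`. -/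
theorem mem_range_bc_of_fixed [IsAlgClosed k] [IsAlgClosed K] (h : ↥(laurentBaseChange K F₀))
    (hfix : ∀ σ : K ≃ₐ[k] K, rho F₀ σ • h = h) : h ∈ Set.range (bc (k := k) (K := K) F₀) := by
  rw [mem_range_bc_iff]
  intro n
  apply Fermat.Agent.ES.GAL.AutTranscendental10.mem_range_of_fixed
  intro σ
  have := congrArg (fun y : ↥(laurentBaseChange K F₀) => (y : LaurentSeries K).coeff n) (hfix σ)
  simpa only [coeff_rho_smul] using this

end Generic

section Modular

variable (k K : Type) [Field k] [Field K] [Algebra ℚ k] [Algebra ℚ K] [Algebra k K] (N : ℕ)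
  [NeZero N]

open Fermat.Agent.ES.KUM.FieldL25

/-- Base change sends `j` to `j`. -/
theorem bc_jL : bc (K := K) (modularFunctionFieldFull N) (jL k N) = jL K N :=
  Subtype.ext (coeffMap_jqModC _)

/-- The base change `F_k → F_K` of modular function fields is a constant field extension. -/
theorem isConstExt_modular :
    IsConstExt (k := k) (K := K) (bc (k := k) (K := K) (modularFunctionFieldFull N)) :=
  isConstExt_bc _

end Modular

end

end Fermat.Agent.J.DESC.DescentC24
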