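/-
Program J (S30), chapter J2 DESCENT, leaf (D3) (helper22): **finite orbit ⇒ rational**.

Setting of `J/DESC/ConstExt24`: a constant field extension `k ⊆ K` of algebraically closed fields of
characteristic 0, function fields `Fk / k`, `FK / K`, `ι : Fk →+* FK` with `IsConstExt ι`.
A group `G` acts semilinearly on `FK / K` (`ρ : G →* SemilinearAut K FK`) fixing `ι Fk` pointwise.

* `exists_liesOver_of_finite`: if a subset `S ⊆ G` moves every `c ∈ K ∖ k` to infinitely many
  values but moves the place `v'` of `FK` to only finitely many places, then `v'` lies over a place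
  of `Fk` (it is *rational over `k`*).
  Proof: otherwise `ord_{v'} (ι f) = 0` for all `f ≠ 0`; the generator `x` of `Fk` has a residue
  `c ∈ K` at `v'` (`ord_{v'} (ι x - c) > 0`), `c ∉ k`; the place `g • v'` has residue `g c` at
  `ι x`, and a place has at most one residue: infinitely many places, contradiction.
* `mem_range_extPlace_of_finite`, and the concrete form for `G = Aut(K/k)`, `H ≤ G` of finite
  index (`mem_range_extPlace_of_finiteIndex`, via `ES/GAL/AutTranscendental10`).
* Divisors: a divisor of `FK` fixed by `S` (resp. by a finite-index subgroup of `Aut(K/k)`) is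
  supported on `range extPlace`, hence is `Finsupp.mapDomain extPlace D₀` for a (unique) divisor
  `D₀` of `Fk` (`exists_mapDomain_extPlace_eq`), effective if `D` is.
-/
import Mathlib
import Fermat.Prelude.Def_AlgebraicCurve_BaseChangeGalois
import Fermat.Agent.J.DESC.ConstExt24
import Fermat.Agent.ES.GAL.AutTranscendental10

set_option autoImplicit false
set_option linter.unusedSectionVars false
set_option linter.style.longLine false

namespace Fermat.Agent.J.DESC.FiniteOrbit22

open AlgebraicCurve Fermat.Agent.X0 Fermat.Agent.J.DESC.ConstExt24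

noncomputable section

universe u v w x y

variable {k : Type u} {K : Type v} {Fk : Type w} {FK : Type x} [Field k] [Field K] [Field Fk]
  [Field FK] [Algebra k K] [Algebra k Fk] [Algebra K FK]

/-! ### Residues of a place are unique -/

/-- A place has at most one *residue* `c` (constant with `ord (y - c) > 0`) at a function `y`. -/
theorem const_unique (v' : Place K FK) {y : FK} {c c' : K}
    (h : 0 < v'.ord (y - algebraMap K FK c)) (h' : 0 < v'.ord (y - algebraMap K FK c')) :
    c = c' := by
  by_contra hne
  have hsub : algebraMap K FK (c' - c) = (y - algebraMap K FK c) - (y - algebraMap K FK c') := by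
    rw [map_sub]; ring
  have h0 : algebraMap K FK (c' - c) ≠ 0 :=
    (map_ne_zero (algebraMap K FK)).mpr (sub_ne_zero.mpr (Ne.symm hne))
  have h1 := FF.ord_sub_ge v' (f := y - algebraMap K FK c) (g := y - algebraMap K FK c')
    (by rw [← hsub]; exact h0)
  rw [← hsub, FF.ord_algebraMap] at h1
  have h2 : 0 < min (v'.ord (y - algebraMap K FK c)) (v'.ord (y - algebraMap K FK c')) :=
    lt_min h h'
  omega

/-- If `y` is itself the constant `c`, then it has no other residue. -/
theorem const_unique_of_eq (v' : Place K FK) {y : FK} {c c' : K}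
    (h : y = algebraMap K FK c) (h' : 0 < v'.ord (y - algebraMap K FK c')) : c = c' := by
  by_contra hne
  rw [h, ← map_sub, FF.ord_algebraMap] at h'
  exact lt_irrefl _ h'

/-! ### Semilinear automorphisms and orders -/

theorem ord_smul_sub_const (g : SemilinearAut K FK) (v' : Place K FK) (y : FK) (c : K) :
    (g • v').ord (g • y - algebraMap K FK (SemilinearAut.baseAut g c)) =
      v'.ord (y - algebraMap K FK c) := by
  rw [← SemilinearAut.smul_algebraMap, ← smul_sub, SemilinearAut.ord_smul]

/-! ### The main theorem -/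

section Main

variable [IsAlgClosed k] [CharZero k] [IsAlgClosed K] [CharZero K] {ι : Fk →+* FK}
  (hι : IsConstExt (k := k) (K := K) ι) {x : Fk} (hx : FF.IsGen k x) {X : FK} (hX : FF.IsGen K X)
  {G : Type y} [Group G] (ρ : G →* SemilinearAut K FK)

include hι hx in
/-- A place of `FK` that does not lie over a place of `Fk` has `ord (ι f) = 0` for all `f ≠ 0`. -/
theorem ord_eq_zero_of_not_liesOver {v' : Place K FK} (h : ¬ ∃ w : Place k Fk, LiesOver ι v' w)
    {f : Fk} (hf : f ≠ 0) : v'.ord (ι f) = 0 := by
  rw [exists_liesOver_iff hι hx] at h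
  push Not at h
  have h1 := h f hf
  have h2 := h f⁻¹ (inv_ne_zero hf)
  rw [map_inv₀, v'.ord_inv] at h2
  omega

include hι hx hX in
/-- **(D3) finite orbit ⇒ rational**, abstract form. `S` is any set of group elements (in
applications a subgroup of finite index of `Aut(K/k)`): if it moves every non-`k`-rational constant
to infinitely many values, and the place `v'` to finitely many places only, then `v'` lies over a
place of `Fk`. -/
theorem exists_liesOver_of_finite (hfix : ∀ (g : G) (f : Fk), ρ g • ι f = ι f) (S : Set G)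
    (hinf : ∀ c : K, c ∉ Set.range (algebraMap k K) →
      ((fun g : G => SemilinearAut.baseAut (ρ g) c) '' S).Infinite)
    (v' : Place K FK) (hfin : ((fun g : G => ρ g • v') '' S).Finite) :
    ∃ w : Place k Fk, LiesOver ι v' w := by
  classical
  by_contra hno
  have hx0 : x ≠ 0 := hx.ne_zero
  have hmem : ι x ∈ v'.toValuationSubring := by
    apply FF.ffp_mem_of_ord_nonneg
    rw [ord_eq_zero_of_not_liesOver hι hx hno hx0]
  obtain ⟨c, hc⟩ := FF.exists_ord_sub_pos hX v' hmem
  -- `c` is not `k`-rational
  have hck : c ∉ Set.range (algebraMap k K) := by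
    rintro ⟨c₀, rfl⟩
    have hne : x - algebraMap k Fk c₀ ≠ 0 := by
      intro h0
      apply hx.transcendental
      rw [sub_eq_zero.mp h0]
      exact isAlgebraic_algebraMap c₀
    have hz := ord_eq_zero_of_not_liesOver hι hx hno hne
    rw [map_sub, hι.comm] at hz
    rcases hc with hc | hc
    · apply hne
      apply ι.injective
      rw [map_sub, hι.comm, hc, sub_self, map_zero]
    · rw [hz] at hc
      exact lt_irrefl _ hc
  -- the residue function on places
  let r : Place K FK → K := fun u =>
    if h : ∃ c' : K, ι x = algebraMap K FK c' ∨ 0 < u.ord (ι x - algebraMap K FK c') then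
      Classical.choose h else 0
  have hr : ∀ g : G, r (ρ g • v') = SemilinearAut.baseAut (ρ g) c := by
    intro g
    have hg : ι x = algebraMap K FK (SemilinearAut.baseAut (ρ g) c) ∨
        0 < (ρ g • v').ord (ι x - algebraMap K FK (SemilinearAut.baseAut (ρ g) c)) := by
      rcases hc with hc | hc
      · left
        have h1 := hfix g x
        rw [hc, SemilinearAut.smul_algebraMap] at h1
        exact hc.trans h1.symm
      · right
        have h1 := ord_smul_sub_const (ρ g) v' (ι x) c
        rw [hfix g x] at h1
        rw [h1]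
        exact hc
    have hex : ∃ c' : K, ι x = algebraMap K FK c' ∨
        0 < (ρ g • v').ord (ι x - algebraMap K FK c') := ⟨_, hg⟩
    have hr1 : r (ρ g • v') = Classical.choose hex := dif_pos hex
    rw [hr1]
    have hspec := Classical.choose_spec hex
    -- uniqueness of the residue
    rcases hspec with h1 | h1 <;> rcases hg with h2 | h2
    · exact (algebraMap K FK).injective (h1.symm.trans h2)
    · exact const_unique_of_eq _ h1 h2
    · exact (const_unique_of_eq _ h2 h1).symm
    · exact const_unique _ h1 h2
  apply hinf c hck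
  have himg : (fun g : G => SemilinearAut.baseAut (ρ g) c) '' S =
      r '' ((fun g : G => ρ g • v') '' S) := by
    rw [Set.image_image]
    exact Set.image_congr fun g _ => (hr g).symm
  rw [himg]
  exact hfin.image r

include hι hx hX in
/-- (D3) in terms of `extPlace`. -/
theorem mem_range_extPlace_of_finite (hfix : ∀ (g : G) (f : Fk), ρ g • ι f = ι f) (S : Set G)
    (hinf : ∀ c : K, c ∉ Set.range (algebraMap k K) →
      ((fun g : G => SemilinearAut.baseAut (ρ g) c) '' S).Infinite)
    (v' : Place K FK) (hfin : ((fun g : G => ρ g • v') '' S).Finite) :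
    v' ∈ Set.range (extPlace ι hι hX) := by
  obtain ⟨w, hw⟩ := exists_liesOver_of_finite hι hx hX ρ hfix S hinf v' hfin
  exact ⟨w, (eq_extPlace_of_liesOver hι hx hX hw).symm⟩

/-! ### Divisors fixed by `S` -/

include hι hx hX in
/-- A divisor fixed by all of `S` is supported on extended places. -/
theorem support_subset_range_extPlace (hfix : ∀ (g : G) (f : Fk), ρ g • ι f = ι f) (S : Set G)
    (hinf : ∀ c : K, c ∉ Set.range (algebraMap k K) →
      ((fun g : G => SemilinearAut.baseAut (ρ g) c) '' S).Infinite)
    (D : Divisor K FK) (hD : ∀ g ∈ S, ρ g • D = D) :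
    (D.support : Set (Place K FK)) ⊆ Set.range (extPlace ι hι hX) := by
  intro v' hv'
  refine mem_range_extPlace_of_finite hι hx hX ρ hfix S hinf v' ?_
  refine D.support.finite_toSet.subset ?_
  rintro _ ⟨g, hg, rfl⟩
  have h1 := SemilinearAut.divisor_smul_apply_smul (ρ g) D v'
  rw [hD g hg] at h1
  rw [Finset.mem_coe, Finsupp.mem_support_iff] at hv' ⊢
  rw [h1]
  exact hv'

/-- A divisor of `FK` supported on extended places is the extension of a divisor of `Fk`, namely of
`w ↦ D (extPlace w)`. -/
theorem exists_mapDomain_extPlace_eq_of_support (D : Divisor K FK)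
    (hD : (D.support : Set (Place K FK)) ⊆ Set.range (extPlace ι hι hX)) :
    ∃ D₀ : Divisor k Fk, Finsupp.mapDomain (extPlace ι hι hX) D₀ = D ∧
      ∀ w : Place k Fk, D₀ w = D (extPlace ι hι hX w) :=
  ⟨Finsupp.comapDomain (extPlace ι hι hX) D (extPlace_injective hι hX).injOn,
    Finsupp.mapDomain_comapDomain _ (extPlace_injective hι hX) D hD,
    fun w => Finsupp.comapDomain_apply _ _ _ w⟩

include hx in
/-- **(D3) for divisors**: a divisor of `FK` fixed by all of `S` is the extension of a unique
divisor of `Fk`. -/
theorem exists_mapDomain_extPlace_eq (hfix : ∀ (g : G) (f : Fk), ρ g • ι f = ι f) (S : Set G)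
    (hinf : ∀ c : K, c ∉ Set.range (algebraMap k K) →
      ((fun g : G => SemilinearAut.baseAut (ρ g) c) '' S).Infinite)
    (D : Divisor K FK) (hD : ∀ g ∈ S, ρ g • D = D) :
    ∃ D₀ : Divisor k Fk, Finsupp.mapDomain (extPlace ι hι hX) D₀ = D ∧
      ∀ w : Place k Fk, D₀ w = D (extPlace ι hι hX w) :=
  exists_mapDomain_extPlace_eq_of_support hι hX D
    (support_subset_range_extPlace hι hx hX ρ hfix S hinf D hD)

theorem mapDomain_extPlace_injective :
    Function.Injective (Finsupp.mapDomain (M := ℤ) (extPlace ι hι hX)) :=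
  Finsupp.mapDomain_injective (extPlace_injective hι hX)

theorem mapDomain_extPlace_apply (D₀ : Divisor k Fk) (w : Place k Fk) :
    Finsupp.mapDomain (extPlace ι hι hX) D₀ (extPlace ι hι hX w) = D₀ w :=
  Finsupp.mapDomain_apply (extPlace_injective hι hX) D₀ w

include hx in
/-- The extension of divisors preserves degrees (all places have degree `1`). -/
theorem degree_mapDomain_extPlace (D₀ : Divisor k Fk) :
    Divisor.degree (Finsupp.mapDomain (extPlace ι hι hX) D₀) = Divisor.degree D₀ := by
  induction D₀ using Finsupp.induction with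
  | zero => simp
  | single_add v n D _ _ ih =>
      rw [Finsupp.mapDomain_add, map_add, map_add, ih, Finsupp.mapDomain_single,
        Divisor.degree_single, Divisor.degree_single, FF.deg_eq_one hX, FF.deg_eq_one hx]

end Main

/-! ### The concrete group `Aut(K/k)` -/

section Aut

variable [IsAlgClosed k] [CharZero k] [IsAlgClosed K] [CharZero K] {ι : Fk →+* FK}
  (hι : IsConstExt (k := k) (K := K) ι) {x : Fk} (hx : FF.IsGen k x) {X : FK} (hX : FF.IsGen K X)
  (ρ : (K ≃ₐ[k] K) →* SemilinearAut K FK)

/-- (AUT-orbit) in the form used here. -/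
theorem infinite_image_of_finiteIndex (hbase : ∀ (σ : K ≃ₐ[k] K) (c : K),
      SemilinearAut.baseAut (ρ σ) c = σ c)
    (H : Subgroup (K ≃ₐ[k] K)) [H.FiniteIndex] {c : K} (hc : c ∉ Set.range (algebraMap k K)) :
    ((fun σ : K ≃ₐ[k] K => SemilinearAut.baseAut (ρ σ) c) '' (H : Set (K ≃ₐ[k] K))).Infinite := by
  have h1 := Fermat.Agent.ES.GAL.AutTranscendental10.infinite_orbit_of_finiteIndex H
    (Fermat.Agent.ES.GAL.AutTranscendental10.transcendental_of_not_mem_range hc)
  refine h1.mono ?_
  rintro _ ⟨⟨σ, hσ⟩, rfl⟩
  exact ⟨σ, hσ, hbase σ c⟩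

include hι hx hX in
/-- **(D3)** for a subgroup `H` of finite index of `Aut(K/k)`: a place of `FK` with finite
`H`-orbit is the extension of a place of `Fk`. -/
theorem mem_range_extPlace_of_finiteIndex
    (hbase : ∀ (σ : K ≃ₐ[k] K) (c : K), SemilinearAut.baseAut (ρ σ) c = σ c)
    (hfix : ∀ (σ : K ≃ₐ[k] K) (f : Fk), ρ σ • ι f = ι f)
    (H : Subgroup (K ≃ₐ[k] K)) [H.FiniteIndex] (v' : Place K FK)
    (hfin : ((fun σ : K ≃ₐ[k] K => ρ σ • v') '' (H : Set (K ≃ₐ[k] K))).Finite) :
    v' ∈ Set.range (extPlace ι hι hX) :=
  mem_range_extPlace_of_finite hι hx hX ρ hfix H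
    (fun _ hc => infinite_image_of_finiteIndex ρ hbase H hc) v' hfin

include hx in
/-- **(D3) for divisors**, subgroup of finite index of `Aut(K/k)`: an `H`-invariant divisor of
`FK` is the extension of a divisor of `Fk`. -/
theorem exists_mapDomain_extPlace_eq_of_finiteIndex
    (hbase : ∀ (σ : K ≃ₐ[k] K) (c : K), SemilinearAut.baseAut (ρ σ) c = σ c)
    (hfix : ∀ (σ : K ≃ₐ[k] K) (f : Fk), ρ σ • ι f = ι f)
    (H : Subgroup (K ≃ₐ[k] K)) [H.FiniteIndex] (D : Divisor K FK)
    (hD : ∀ σ ∈ H, ρ σ • D = D) :
    ∃ D₀ : Divisor k Fk, Finsupp.mapDomain (extPlace ι hι hX) D₀ = D ∧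
      ∀ w : Place k Fk, D₀ w = D (extPlace ι hι hX w) :=
  exists_mapDomain_extPlace_eq hι hx hX ρ hfix H
    (fun _ hc => infinite_image_of_finiteIndex ρ hbase H hc) D hD

end Aut

end

end Fermat.Agent.J.DESC.FiniteOrbit22
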