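/-
Program J, chapter J2 (DESC), leaf (D4) NORMAL FORM (helper10).

`F / K` a function field satisfying the hypotheses `RR.LSpace.LHyp K F` (every function field with a
generator over an algebraically closed field of characteristic zero: `RR.LHypGen.lHyp_of_isGen`) and
Riemann's inequality (`RR.LHypGen.riemann_inequality_of_isGen`), `P₀` a fixed place.

For a divisor `D`:
* `minPole D` : the least `m` with `L(D + m·P₀) ≠ 0`;
* `finrank_L_minPole` : if `deg D = 0` then `dim L(D + minPole D · P₀) = 1`;
* `normalForm D` : the unique effective divisor linearly equivalent to `D + minPole D · P₀`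
  (`normalForm_nonneg`, `normalForm_eq` for any nonzero `f ∈ L(D + minPole D · P₀)`);
* `minPole_congr`, `normalForm_congr` : both depend only on the class of `D`;
* `minPole_smul`, `normalForm_smul` : equivariance under the semilinear automorphisms `g` of `F / K` fixing
  `P₀`; hence `smul_mem_support_normalForm` : an automorphism fixing `P₀` and the class of `D`
  permutes the (finite) support of `normalForm D`.
-/
import Mathlib
import Fermat.Prelude.Def_AlgebraicCurve_BaseChangeGalois
import Fermat.Agent.RR.LSpace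
import Fermat.Agent.X0.FFPlace

set_option autoImplicit false

noncomputable section

open AlgebraicCurve

namespace Fermat.Agent.J.DESC.NormalForm10

open Fermat.Agent.RR.LSpace Fermat.Agent.X0.FF

variable {K F : Type*} [Field K] [Field F] [Algebra K F]

variable (K F) in
/-- Riemann's inequality, as a hypothesis (`RR.LHypGen.riemann_inequality_of_isGen`). -/
def RiemannHyp : Prop :=
  ∃ γ : ℤ, ∀ D : Divisor K F,
    Divisor.degree D + 1 - γ ≤ (Module.finrank K (riemannRochSpace D) : ℤ)

/-- `D + m·P₀`. -/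
def shift (P₀ : Place K F) (D : Divisor K F) (m : ℕ) : Divisor K F :=
  D + Finsupp.single P₀ (m : ℤ)

theorem shift_zero (P₀ : Place K F) (D : Divisor K F) : shift P₀ D 0 = D := by
  rw [shift, Nat.cast_zero, Finsupp.single_zero, add_zero]

theorem shift_succ (P₀ : Place K F) (D : Divisor K F) (m : ℕ) :
    shift P₀ D (m + 1) = shift P₀ D m + Finsupp.single P₀ 1 := by
  rw [shift, shift, Nat.cast_succ, Finsupp.single_add, add_assoc]

theorem shift_add (P₀ : Place K F) (D E : Divisor K F) (m : ℕ) :
    shift P₀ (D + E) m = shift P₀ D m + E := by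
  rw [shift, shift]
  abel

theorem degree_shift (H : LHyp K F) (P₀ : Place K F) (D : Divisor K F) (m : ℕ) :
    Divisor.degree (shift P₀ D m) = Divisor.degree D + m := by
  rw [shift, map_add, degree_single H]

/-! ### the least pole order -/

section MinPole

variable (H : LHyp K F) (hR : RiemannHyp K F) (P₀ : Place K F)

include H hR in
theorem exists_L_ne_bot (D : Divisor K F) :
    ∃ m : ℕ, riemannRochSpace (shift P₀ D m) ≠ ⊥ := by
  obtain ⟨γ, hγ⟩ := hR
  refine ⟨(γ - Divisor.degree D).toNat, fun hbot => ?_⟩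
  have h1 := hγ (shift P₀ D (γ - Divisor.degree D).toNat)
  rw [hbot, finrank_bot, degree_shift H] at h1
  have h2 : γ - Divisor.degree D ≤ ((γ - Divisor.degree D).toNat : ℤ) := Int.self_le_toNat _
  push_cast at h1
  omega

open Classical in
/-- the least `m` with `L(D + m·P₀) ≠ 0`. -/
def minPole (D : Divisor K F) : ℕ := Nat.find (exists_L_ne_bot H hR P₀ D)

theorem L_minPole_ne_bot (D : Divisor K F) :
    riemannRochSpace (shift P₀ D (minPole H hR P₀ D)) ≠ ⊥ := by
  classical
  exact Nat.find_spec (exists_L_ne_bot H hR P₀ D)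

theorem L_eq_bot_of_lt_minPole (D : Divisor K F) {m : ℕ} (h : m < minPole H hR P₀ D) :
    riemannRochSpace (shift P₀ D m) = ⊥ := by
  classical
  by_contra hne
  exact Nat.find_min (exists_L_ne_bot H hR P₀ D) h hne

theorem minPole_le (D : Divisor K F) {m : ℕ} (h : riemannRochSpace (shift P₀ D m) ≠ ⊥) :
    minPole H hR P₀ D ≤ m := by
  classical
  exact Nat.find_min' (exists_L_ne_bot H hR P₀ D) h

/-- characterisation of `minPole`. -/
theorem minPole_eq_iff (D : Divisor K F) (m : ℕ) :
    minPole H hR P₀ D = m ↔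
      riemannRochSpace (shift P₀ D m) ≠ ⊥ ∧ ∀ k < m, riemannRochSpace (shift P₀ D k) = ⊥ := by
  constructor
  · rintro rfl
    exact ⟨L_minPole_ne_bot H hR P₀ D, fun k hk => L_eq_bot_of_lt_minPole H hR P₀ D hk⟩
  · rintro ⟨h1, h2⟩
    apply le_antisymm (minPole_le H hR P₀ D h1)
    by_contra hlt
    exact L_minPole_ne_bot H hR P₀ D (h2 _ (not_le.mp hlt))

/-- **`dim L(D + minPole D · P₀) = 1`** for `deg D = 0`. -/
theorem finrank_L_minPole (D : Divisor K F) (hD : Divisor.degree D = 0) :
    Module.finrank K (riemannRochSpace (shift P₀ D (minPole H hR P₀ D))) = 1 := by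
  have hfd : FiniteDimensional K (riemannRochSpace (shift P₀ D (minPole H hR P₀ D))) :=
    finiteDimensional_L H _
  have hpos : 0 < Module.finrank K (riemannRochSpace (shift P₀ D (minPole H hR P₀ D))) := by
    rw [Module.finrank_pos_iff, Submodule.nontrivial_iff_ne_bot]
    exact L_minPole_ne_bot H hR P₀ D
  have hle : Module.finrank K (riemannRochSpace (shift P₀ D (minPole H hR P₀ D))) ≤ 1 := by
    rcases Nat.eq_zero_or_pos (minPole H hR P₀ D) with h0 | h0
    · rw [h0, shift_zero]
      have h1 := finrank_L_le H D (by rw [hD])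
      rw [hD] at h1
      exact_mod_cast h1
    · obtain ⟨m, hm⟩ := Nat.exists_eq_succ_of_ne_zero h0.ne'
      have hbot := L_eq_bot_of_lt_minPole H hR P₀ D (m := m) (by omega)
      have : FiniteDimensional K (riemannRochSpace (shift P₀ D m)) := finiteDimensional_L H _
      have h1 := (finrank_L_add_single_le H (shift P₀ D m) P₀).2
      rw [← shift_succ, hbot, finrank_bot, zero_add] at h1
      rw [hm]
      exact h1
  omega

/-- every element of `L(D + minPole D · P₀)` is a multiple of any nonzero element. -/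
theorem exists_smul_eq (D : Divisor K F) (hD : Divisor.degree D = 0) {f g : F} (hf0 : f ≠ 0)
    (hf : f ∈ riemannRochSpace (shift P₀ D (minPole H hR P₀ D)))
    (hg : g ∈ riemannRochSpace (shift P₀ D (minPole H hR P₀ D))) : ∃ c : K, g = c • f := by
  have h1 := finrank_L_minPole H hR P₀ D hD
  have hf' : (⟨f, hf⟩ : riemannRochSpace (shift P₀ D (minPole H hR P₀ D))) ≠ 0 :=
    fun h => hf0 (congrArg Subtype.val h)
  obtain ⟨c, hc⟩ := (finrank_eq_one_iff_of_nonzero' _ hf').mp h1 ⟨g, hg⟩
  exact ⟨c, (congrArg Subtype.val hc).symm⟩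

end MinPole

/-! ### divisors of functions -/

section DivOf

variable (H : LHyp K F)

theorem divOf_smul {f : F} (hf : f ≠ 0) {c : K} (hc : c ≠ 0) (hcf : c • f ≠ 0) :
    divOf H hcf = divOf H hf := by
  ext v
  rw [divOf_apply, divOf_apply, Algebra.smul_def,
    v.ord_mul ((map_ne_zero (algebraMap K F)).mpr hc) hf, ffp_ord_algebraMap, zero_add]

theorem divOf_mul {f g : F} (hf : f ≠ 0) (hg : g ≠ 0) (hfg : f * g ≠ 0) :
    divOf H hfg = divOf H hf + divOf H hg := by
  ext v
  rw [Finsupp.add_apply, divOf_apply, divOf_apply, divOf_apply, v.ord_mul hf hg]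

/-- a divisor with the orders of `f` is `divOf`. -/
theorem eq_divOf {f : F} (hf : f ≠ 0) {E : Divisor K F} (hE : ∀ v : Place K F, E v = v.ord f) :
    E = divOf H hf := by
  ext v
  rw [hE v, divOf_apply]

theorem nonneg_add_divOf {D : Divisor K F} {f : F} (hf0 : f ≠ 0)
    (hf : f ∈ riemannRochSpace D) : 0 ≤ D + divOf H hf0 := by
  intro v
  rw [Finsupp.add_apply, divOf_apply]
  have := (mem_L_iff hf0).mp hf v
  simp only [Finsupp.coe_zero, Pi.zero_apply]
  omega

end DivOf

/-! ### the normal form -/

section NormalForm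

variable (H : LHyp K F) (hR : RiemannHyp K F) (P₀ : Place K F)

theorem exists_gen (D : Divisor K F) :
    ∃ f : F, f ≠ 0 ∧ f ∈ riemannRochSpace (shift P₀ D (minPole H hR P₀ D)) := by
  obtain ⟨f, hf, hf0⟩ := (Submodule.ne_bot_iff _).mp (L_minPole_ne_bot H hR P₀ D)
  exact ⟨f, hf0, hf⟩

/-- a nonzero element of `L(D + minPole D · P₀)`. -/
def gen (D : Divisor K F) : F := (exists_gen H hR P₀ D).choose

theorem gen_ne_zero (D : Divisor K F) : gen H hR P₀ D ≠ 0 := (exists_gen H hR P₀ D).choose_spec.1

theorem gen_mem (D : Divisor K F) :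
    gen H hR P₀ D ∈ riemannRochSpace (shift P₀ D (minPole H hR P₀ D)) :=
  (exists_gen H hR P₀ D).choose_spec.2

/-- **the normal form** of `D`: the effective divisor `D + minPole D · P₀ + div f`. -/
def normalForm (D : Divisor K F) : Divisor K F :=
  shift P₀ D (minPole H hR P₀ D) + divOf H (gen_ne_zero H hR P₀ D)

theorem normalForm_nonneg (D : Divisor K F) : 0 ≤ normalForm H hR P₀ D :=
  nonneg_add_divOf H (gen_ne_zero H hR P₀ D) (gen_mem H hR P₀ D)

/-- the normal form is computed by ANY nonzero element of `L(D + minPole D · P₀)`. -/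
theorem normalForm_eq (D : Divisor K F) (hD : Divisor.degree D = 0) {f : F} (hf0 : f ≠ 0)
    (hf : f ∈ riemannRochSpace (shift P₀ D (minPole H hR P₀ D))) :
    normalForm H hR P₀ D = shift P₀ D (minPole H hR P₀ D) + divOf H hf0 := by
  obtain ⟨c, hc⟩ := exists_smul_eq H hR P₀ D hD (gen_ne_zero H hR P₀ D) (gen_mem H hR P₀ D) hf
  have hc0 : c ≠ 0 := by
    rintro rfl
    rw [zero_smul] at hc
    exact hf0 hc
  have hcf : c • gen H hR P₀ D ≠ 0 := hc ▸ hf0
  have h1 : divOf H hf0 = divOf H hcf := by
    congr 1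
  rw [normalForm, h1, divOf_smul H (gen_ne_zero H hR P₀ D) hc0 hcf]

theorem degree_normalForm (D : Divisor K F) :
    Divisor.degree (normalForm H hR P₀ D) = Divisor.degree D + minPole H hR P₀ D := by
  rw [normalForm, map_add, degree_divOf, add_zero, degree_shift H]

/-- `D` is linearly equivalent to `normalForm D - minPole D · P₀`. -/
theorem normalForm_sub_mem_principal (D : Divisor K F) :
    normalForm H hR P₀ D - Finsupp.single P₀ ((minPole H hR P₀ D : ℕ) : ℤ) - D ∈
      Divisor.principal (K := K) (F := F) := by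
  refine ⟨gen H hR P₀ D, gen_ne_zero H hR P₀ D, fun v => ?_⟩
  rw [normalForm, shift, ← divOf_apply H (gen_ne_zero H hR P₀ D) v]
  congr 1
  abel

end NormalForm

/-! ### dependence on the class only -/

section Congr

variable (H : LHyp K F) (hR : RiemannHyp K F) (P₀ : Place K F)

theorem L_shift_add_divOf_ne_bot_iff (D : Divisor K F) {g : F} (hg : g ≠ 0) (m : ℕ) :
    riemannRochSpace (shift P₀ (D + divOf H hg) m) ≠ ⊥ ↔ riemannRochSpace (shift P₀ D m) ≠ ⊥ := by
  rw [shift_add]
  have e := mulEquiv H (shift P₀ D m) hg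
  constructor
  · intro h hbot
    apply h
    rw [Submodule.eq_bot_iff]
    intro x hx
    have h1 : e ⟨x, hx⟩ = 0 := by
      have : (e ⟨x, hx⟩ : F) ∈ (⊥ : Submodule K F) := hbot ▸ (e ⟨x, hx⟩).2
      exact Subtype.ext ((Submodule.mem_bot K).mp this)
    have h2 := e.injective (h1.trans (map_zero e).symm)
    exact congrArg Subtype.val h2
  · intro h hbot
    apply h
    rw [Submodule.eq_bot_iff]
    intro x hx
    have h1 : e.symm ⟨x, hx⟩ = 0 := by
      have : (e.symm ⟨x, hx⟩ : F) ∈ (⊥ : Submodule K F) := hbot ▸ (e.symm ⟨x, hx⟩).2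
      exact Subtype.ext ((Submodule.mem_bot K).mp this)
    have h2 := e.symm.injective (h1.trans (map_zero e.symm).symm)
    exact congrArg Subtype.val h2

/-- `minPole` depends only on the class of `D`. -/
theorem minPole_add_divOf (D : Divisor K F) {g : F} (hg : g ≠ 0) :
    minPole H hR P₀ (D + divOf H hg) = minPole H hR P₀ D := by
  rw [minPole_eq_iff]
  refine ⟨(L_shift_add_divOf_ne_bot_iff H P₀ D hg _).mpr (L_minPole_ne_bot H hR P₀ D),
    fun k hk => ?_⟩
  by_contra hne
  exact (L_shift_add_divOf_ne_bot_iff H P₀ D hg k).mp hne (L_eq_bot_of_lt_minPole H hR P₀ D hk)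

/-- `normalForm` depends only on the class of `D`. -/
theorem normalForm_add_divOf (D : Divisor K F) (hD : Divisor.degree D = 0) {g : F} (hg : g ≠ 0) :
    normalForm H hR P₀ (D + divOf H hg) = normalForm H hR P₀ D := by
  set D' := D + divOf H hg with hD'
  have hm := minPole_add_divOf H hR P₀ D hg
  -- `g * gen D' ∈ L(D + m P₀)`
  have hmem : gen H hR P₀ D' ∈
      riemannRochSpace (shift P₀ D (minPole H hR P₀ D) + divOf H hg) := by
    have := gen_mem H hR P₀ D'
    rwa [hm, hD', shift_add] at this
  have h1 := mul_mem_L H _ hg hmem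
  have h0 : g * gen H hR P₀ D' ≠ 0 := mul_ne_zero hg (gen_ne_zero H hR P₀ D')
  rw [normalForm_eq H hR P₀ D hD h0 h1, divOf_mul H hg (gen_ne_zero H hR P₀ D') h0, normalForm, hm,
    hD', shift_add]
  abel

/-- `normalForm`, `minPole` depend only on the class of `D` (principal-divisor form). -/
theorem minPole_congr {D D' : Divisor K F}
    (h : D' - D ∈ Divisor.principal (K := K) (F := F)) :
    minPole H hR P₀ D' = minPole H hR P₀ D := by
  obtain ⟨g, hg, hE⟩ := h
  have h1 : D' = D + divOf H hg := by
    rw [← eq_divOf H hg hE]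
    abel
  rw [h1, minPole_add_divOf]

theorem normalForm_congr {D D' : Divisor K F} (hD : Divisor.degree D = 0)
    (h : D' - D ∈ Divisor.principal (K := K) (F := F)) :
    normalForm H hR P₀ D' = normalForm H hR P₀ D := by
  obtain ⟨g, hg, hE⟩ := h
  have h1 : D' = D + divOf H hg := by
    rw [← eq_divOf H hg hE]
    abel
  rw [h1, normalForm_add_divOf H hR P₀ D hD]

end Congr

/-! ### equivariance under semilinear automorphisms fixing `P₀` -/

section Equivariance

variable (H : LHyp K F) (hR : RiemannHyp K F) (P₀ : Place K F)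

theorem smul_eq_zero_iff (g : SemilinearAut K F) (f : F) : g • f = 0 ↔ f = 0 := by
  rw [SemilinearAut.smul_def]
  exact map_eq_zero_iff _ (SemilinearAut.toRingAut g).injective

/-- `g • f ∈ L(g • D) ↔ f ∈ L(D)`. -/
theorem smul_mem_L_iff (g : SemilinearAut K F) (D : Divisor K F) (f : F) :
    g • f ∈ riemannRochSpace (g • D) ↔ f ∈ riemannRochSpace D := by
  rw [mem_riemannRochSpace_iff, mem_riemannRochSpace_iff]
  constructor
  · intro h v
    have h1 := h (g • v)
    rwa [smul_eq_zero_iff, SemilinearAut.divisor_smul_apply_smul, SemilinearAut.ord_smul] at h1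
  · intro h w
    have h1 := h (g⁻¹ • w)
    have h2 : (g • D) w = D (g⁻¹ • w) := SemilinearAut.divisor_smul_apply g D w
    have h3 : w.ord (g • f) = (g⁻¹ • w).ord f := by
      have := SemilinearAut.ord_smul g (g⁻¹ • w) f
      rwa [smul_inv_smul] at this
    rwa [smul_eq_zero_iff, h2, h3]

theorem L_smul_ne_bot_iff (g : SemilinearAut K F) (D : Divisor K F) :
    riemannRochSpace (g • D) ≠ ⊥ ↔ riemannRochSpace D ≠ ⊥ := by
  rw [Submodule.ne_bot_iff, Submodule.ne_bot_iff]
  constructor
  · rintro ⟨f, hf, hf0⟩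
    refine ⟨g⁻¹ • f, ?_, fun h => hf0 ((smul_eq_zero_iff g⁻¹ f).mp h)⟩
    rw [← smul_mem_L_iff g, smul_inv_smul]
    exact hf
  · rintro ⟨f, hf, hf0⟩
    exact ⟨g • f, (smul_mem_L_iff g D f).mpr hf, fun h => hf0 ((smul_eq_zero_iff g f).mp h)⟩

theorem smul_shift (g : SemilinearAut K F) (hg : g • P₀ = P₀) (D : Divisor K F) (m : ℕ) :
    g • shift P₀ D m = shift P₀ (g • D) m := by
  rw [shift, shift, smul_add, SemilinearAut.smul_single, hg]

/-- `minPole` is invariant under the automorphisms fixing `P₀`. -/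
theorem minPole_smul (g : SemilinearAut K F) (hg : g • P₀ = P₀) (D : Divisor K F) :
    minPole H hR P₀ (g • D) = minPole H hR P₀ D := by
  rw [minPole_eq_iff]
  refine ⟨?_, fun k hk => ?_⟩
  · rw [← smul_shift P₀ g hg, L_smul_ne_bot_iff]
    exact L_minPole_ne_bot H hR P₀ D
  · by_contra hne
    rw [← smul_shift P₀ g hg] at hne
    exact (L_smul_ne_bot_iff g _).mp hne (L_eq_bot_of_lt_minPole H hR P₀ D hk)

/-- `div (g • f) = g • div f`. -/
theorem divOf_smulAut (g : SemilinearAut K F) {f : F} (hf : f ≠ 0) (hgf : g • f ≠ 0) :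
    divOf H hgf = g • divOf H hf := by
  ext w
  rw [divOf_apply, SemilinearAut.divisor_smul_apply, divOf_apply]
  have := SemilinearAut.ord_smul g (g⁻¹ • w) f
  rwa [smul_inv_smul] at this

/-- **`normalForm (g • D) = g • normalForm D`** for `g` fixing `P₀`. -/
theorem normalForm_smul (g : SemilinearAut K F) (hg : g • P₀ = P₀) (D : Divisor K F)
    (hD : Divisor.degree D = 0) :
    normalForm H hR P₀ (g • D) = g • normalForm H hR P₀ D := by
  have hm := minPole_smul H hR P₀ g hg D
  have hgD : Divisor.degree (g • D) = 0 := by rw [SemilinearAut.degree_smul, hD]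
  have h0 : g • gen H hR P₀ D ≠ 0 := fun h => gen_ne_zero H hR P₀ D ((smul_eq_zero_iff g _).mp h)
  have hmem : g • gen H hR P₀ D ∈
      riemannRochSpace (shift P₀ (g • D) (minPole H hR P₀ (g • D))) := by
    rw [hm, ← smul_shift P₀ g hg, smul_mem_L_iff]
    exact gen_mem H hR P₀ D
  rw [normalForm_eq H hR P₀ (g • D) hgD h0 hmem, hm, divOf_smulAut H g (gen_ne_zero H hR P₀ D) h0,
    ← smul_shift P₀ g hg, ← smul_add]
  rfl

/-- an automorphism fixing `P₀` and the class of `D` fixes the normal form of `D`. -/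
theorem smul_normalForm_eq (g : SemilinearAut K F) (hg : g • P₀ = P₀) (D : Divisor K F)
    (hD : Divisor.degree D = 0)
    (hcl : g • D - D ∈ Divisor.principal (K := K) (F := F)) :
    g • normalForm H hR P₀ D = normalForm H hR P₀ D := by
  rw [← normalForm_smul H hR P₀ g hg D hD, normalForm_congr H hR P₀ hD hcl]

/-- … hence permutes its (finite) support. -/
theorem smul_mem_support_normalForm (g : SemilinearAut K F) (hg : g • P₀ = P₀) (D : Divisor K F)
    (hD : Divisor.degree D = 0)
    (hcl : g • D - D ∈ Divisor.principal (K := K) (F := F)) {v : Place K F}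
    (hv : v ∈ (normalForm H hR P₀ D).support) : g • v ∈ (normalForm H hR P₀ D).support := by
  rw [Finsupp.mem_support_iff] at hv ⊢
  have h1 := SemilinearAut.divisor_smul_apply_smul g (normalForm H hR P₀ D) v
  rw [smul_normalForm_eq H hR P₀ g hg D hD hcl] at h1
  rwa [h1]

/-- the orbit of a place of the normal form under a subgroup fixing `P₀` and the class of `D` is
finite. -/
theorem finite_orbit_of_mem_support (G : Subgroup (SemilinearAut K F))
    (hG : ∀ g ∈ G, g • P₀ = P₀) (D : Divisor K F) (hD : Divisor.degree D = 0)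
    (hcl : ∀ g ∈ G, g • D - D ∈ Divisor.principal (K := K) (F := F)) {v : Place K F}
    (hv : v ∈ (normalForm H hR P₀ D).support) : (MulAction.orbit G v).Finite := by
  refine (normalForm H hR P₀ D).support.finite_toSet.subset ?_
  rintro _ ⟨g, rfl⟩
  exact smul_mem_support_normalForm H hR P₀ (g : SemilinearAut K F) (hG g g.2) D hD
    (hcl g g.2) hv

end Equivariance

/-! ### on divisor classes -/

section Pic

variable (H : LHyp K F) (hR : RiemannHyp K F) (P₀ : Place K F)

theorem sub_mem_principal_of_mk_eq {D D' : Divisor.degZero (K := K) (F := F)}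
    (h : Pic0.mk D' = Pic0.mk D) :
    (D' : Divisor K F) - (D : Divisor K F) ∈ Divisor.principal (K := K) (F := F) := by
  have h1 := QuotientAddGroup.eq.mp h.symm
  rw [AddSubgroup.mem_addSubgroupOf] at h1
  have h2 : (D' : Divisor K F) - (D : Divisor K F) =
      ((-D + D' : Divisor.degZero (K := K) (F := F)) : Divisor K F) := by
    push_cast
    abel
  rw [h2]
  exact h1

theorem mk_eq_of_sub_mem_principal {D D' : Divisor.degZero (K := K) (F := F)}
    (h : (D' : Divisor K F) - (D : Divisor K F) ∈ Divisor.principal (K := K) (F := F)) :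
    Pic0.mk D' = Pic0.mk D := by
  symm
  apply QuotientAddGroup.eq.mpr
  rw [AddSubgroup.mem_addSubgroupOf]
  have h2 : (D' : Divisor K F) - (D : Divisor K F) =
      ((-D + D' : Divisor.degZero (K := K) (F := F)) : Divisor K F) := by
    push_cast
    abel
  rw [← h2]
  exact h

/-- the least pole order of a class. -/
def minPolePic (x : Pic0 K F) : ℕ :=
  minPole H hR P₀ ((Quotient.out x : Divisor.degZero (K := K) (F := F)) : Divisor K F)

/-- **the normal form of a class** `x ∈ Pic⁰`: the unique effective divisor `E` with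
`E - minPolePic x · P₀` in the class `x`, `minPolePic x` minimal. -/
def normalFormPic (x : Pic0 K F) : Divisor K F :=
  normalForm H hR P₀ ((Quotient.out x : Divisor.degZero (K := K) (F := F)) : Divisor K F)

theorem minPolePic_mk (D : Divisor.degZero (K := K) (F := F)) :
    minPolePic H hR P₀ (Pic0.mk D) = minPole H hR P₀ (D : Divisor K F) :=
  minPole_congr H hR P₀ (sub_mem_principal_of_mk_eq (Quotient.out_eq (Pic0.mk D)))

theorem normalFormPic_mk (D : Divisor.degZero (K := K) (F := F)) :
    normalFormPic H hR P₀ (Pic0.mk D) = normalForm H hR P₀ (D : Divisor K F) :=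
  normalForm_congr H hR P₀ (Divisor.mem_degZero.mp D.2)
    (sub_mem_principal_of_mk_eq (Quotient.out_eq (Pic0.mk D)))

theorem normalFormPic_nonneg (x : Pic0 K F) : 0 ≤ normalFormPic H hR P₀ x :=
  normalForm_nonneg H hR P₀ _

theorem degree_normalFormPic (x : Pic0 K F) :
    Divisor.degree (normalFormPic H hR P₀ x) = minPolePic H hR P₀ x := by
  rw [normalFormPic, degree_normalForm, minPolePic,
    Divisor.mem_degZero.mp (Quotient.out x : Divisor.degZero (K := K) (F := F)).2, zero_add]

/-- `x` is the class of `normalFormPic x - minPolePic x · P₀`. -/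
theorem mk_normalFormPic (x : Pic0 K F)
    (hdeg : normalFormPic H hR P₀ x - Finsupp.single P₀ ((minPolePic H hR P₀ x : ℕ) : ℤ) ∈
      Divisor.degZero (K := K) (F := F)) :
    Pic0.mk ⟨_, hdeg⟩ = x := by
  have h1 := normalForm_sub_mem_principal H hR P₀
    ((Quotient.out x : Divisor.degZero (K := K) (F := F)) : Divisor K F)
  have h2 : Pic0.mk ⟨_, hdeg⟩ = Pic0.mk (Quotient.out x) :=
    mk_eq_of_sub_mem_principal h1
  rw [h2]
  exact Quotient.out_eq x

theorem sub_single_mem_degZero (x : Pic0 K F) :
    normalFormPic H hR P₀ x - Finsupp.single P₀ ((minPolePic H hR P₀ x : ℕ) : ℤ) ∈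
      Divisor.degZero (K := K) (F := F) := by
  rw [Divisor.mem_degZero, map_sub, degree_normalFormPic, degree_single H, sub_self]

/-- `x` is the class of `normalFormPic x - minPolePic x · P₀` (hypothesis-free form). -/
theorem mk_normalFormPic' (x : Pic0 K F) :
    Pic0.mk ⟨_, sub_single_mem_degZero H hR P₀ x⟩ = x :=
  mk_normalFormPic H hR P₀ x _

/-- equivariance of the normal form of classes. -/
theorem normalFormPic_smul (g : SemilinearAut K F) (hg : g • P₀ = P₀) (x : Pic0 K F) :
    normalFormPic H hR P₀ (g • x) = g • normalFormPic H hR P₀ x := by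
  obtain ⟨D, rfl⟩ := Pic0.mk_surjective x
  rw [SemilinearAut.pic0_smul_mk, normalFormPic_mk, normalFormPic_mk,
    SemilinearAut.coe_degZeroSMulHom,
    normalForm_smul H hR P₀ g hg (D : Divisor K F) (Divisor.mem_degZero.mp D.2)]

theorem minPolePic_smul (g : SemilinearAut K F) (hg : g • P₀ = P₀) (x : Pic0 K F) :
    minPolePic H hR P₀ (g • x) = minPolePic H hR P₀ x := by
  obtain ⟨D, rfl⟩ := Pic0.mk_surjective x
  rw [SemilinearAut.pic0_smul_mk, minPolePic_mk, minPolePic_mk,
    SemilinearAut.coe_degZeroSMulHom, minPole_smul H hR P₀ g hg]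

/-- **the places of the normal form of a class `x` have finite orbits under any group of
automorphisms fixing `P₀` and `x`.** -/
theorem finite_orbit_of_mem_support_pic (G : Subgroup (SemilinearAut K F))
    (hG : ∀ g ∈ G, g • P₀ = P₀) (x : Pic0 K F) (hx : ∀ g ∈ G, g • x = x) {v : Place K F}
    (hv : v ∈ (normalFormPic H hR P₀ x).support) : (MulAction.orbit G v).Finite := by
  refine (normalFormPic H hR P₀ x).support.finite_toSet.subset ?_
  rintro _ ⟨g, rfl⟩
  show (g : SemilinearAut K F) • v ∈ (normalFormPic H hR P₀ x).support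
  rw [Finsupp.mem_support_iff] at hv ⊢
  have h1 := SemilinearAut.divisor_smul_apply_smul (g : SemilinearAut K F)
    (normalFormPic H hR P₀ x) v
  rw [← normalFormPic_smul H hR P₀ (g : SemilinearAut K F) (hG g g.2) x, hx g g.2] at h1
  rwa [h1]

end Pic

end Fermat.Agent.J.DESC.NormalForm10
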