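/-
Program J (S30), chapter J2 DESCENT, leaf (D5) in ABSTRACT form (helper22):
**`Pic⁰` of a function field does not change under an extension `k ⊆ K` of algebraically closed
constant fields, on torsion — given only that the torsion over `K` is finite.**

Setting of `J/DESC/ConstExt24`: `k ⊆ K` algebraically closed of characteristic 0, function fields
`Fk / k`, `FK / K`, `ι : Fk →+* FK` with `IsConstExt ι`; a group acts semilinearly on `FK / K`
(`ρ : G →* SemilinearAut K FK`), fixing `ι Fk` pointwise (`hfix`), with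
(INV) every `ρ G`-invariant element of `FK` lies in `ι Fk`.

* `smul_extPlace` : extended places are fixed.
* `extDiv : Divisor k Fk →+ Divisor K FK` (`Finsupp.mapDomain extPlace`), `degree_extDiv`,
  `extDiv_apply_of_principal` (`div f ↦ div (ι f)`), `smul_extDiv`.
* `extPic0 : Pic0 k Fk →+ Pic0 K FK`, `smul_extPic0`.
* `mem_principal_of_extDiv_mem_principal`, `extPic0_injective` (from (INV)).
* for `G = Aut(K/k)` (`hbase`): a class fixed by a subgroup of finite index is in the image
  (`mem_range_extPic0_of_finiteIndex`, via the normal form (D4) and finite orbits (D3)); if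
  `Pic0.torsion K FK n` is finite, `extPic0` restricts to an isomorphism
  `torsionEquiv : Pic0.torsion k Fk n ≃+ Pic0.torsion K FK n`, whose image is fixed by `ρ`.
-/
import Mathlib
import Fermat.Prelude.Def_AlgebraicCurve_BaseChangeGalois
import Fermat.Agent.J.DESC.ConstExt24
import Fermat.Agent.J.DESC.FiniteOrbit22
import Fermat.Agent.J.DESC.NormalForm10
import Fermat.Agent.RR.LHypGen

set_option autoImplicit false
set_option linter.unusedSectionVars false
set_option linter.style.longLine false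

namespace Fermat.Agent.J.DESC.ExtPic22

open AlgebraicCurve Fermat.Agent.X0 Fermat.Agent.J.DESC.ConstExt24
  Fermat.Agent.J.DESC.FiniteOrbit22 Fermat.Agent.J.DESC.NormalForm10
open Fermat.Agent.RR.LSpace Fermat.Agent.RR.LHypGen
open scoped Pointwise

noncomputable section

universe u v w x y

variable {k : Type u} {K : Type v} {Fk : Type w} {FK : Type x} [Field k] [Field K] [Field Fk]
  [Field FK] [Algebra k K] [Algebra k Fk] [Algebra K FK]
  [IsAlgClosed k] [CharZero k] [IsAlgClosed K] [CharZero K] {ι : Fk →+* FK}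
  (hι : IsConstExt (k := k) (K := K) ι) {x : Fk} (hx : FF.IsGen k x) {X : FK} (hX : FF.IsGen K X)

/-! ### (D2), abstract half: extended places are fixed -/

/-- A semilinear automorphism fixing `ι Fk` pointwise preserves "lying over `w`". -/
theorem liesOver_smul (g : SemilinearAut K FK) (hg : ∀ f : Fk, g • ι f = ι f)
    {v' : Place K FK} {w : Place k Fk} (h : LiesOver ι v' w) : LiesOver ι (g • v') w := by
  intro a
  rw [h a, SemilinearAut.smul_toValuationSubring,
    ValuationSubring.mem_pointwise_smul_iff_inv_smul_mem]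
  have h1 : g⁻¹ • ι a = ι a := by
    rw [inv_smul_eq_iff, hg]
  rw [h1]

include hx in
/-- **Extended places are fixed** by semilinear automorphisms fixing `ι Fk` pointwise. -/
theorem smul_extPlace (g : SemilinearAut K FK) (hg : ∀ f : Fk, g • ι f = ι f) (w : Place k Fk) :
    g • extPlace ι hι hX w = extPlace ι hι hX w :=
  eq_extPlace_of_liesOver hι hx hX (liesOver_smul g hg (extPlace_liesOver hι hX w))

/-! ### Extension of divisors -/

/-- **Extension of divisors** `Divisor k Fk →+ Divisor K FK`. -/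
def extDiv : Divisor k Fk →+ Divisor K FK :=
  Finsupp.mapDomain.addMonoidHom (extPlace ι hι hX)

theorem extDiv_apply (D : Divisor k Fk) :
    extDiv hι hX D = Finsupp.mapDomain (extPlace ι hι hX) D := rfl

@[simp]
theorem extDiv_single (w : Place k Fk) (n : ℤ) :
    extDiv hι hX (Finsupp.single w n) = Finsupp.single (extPlace ι hι hX w) n := by
  rw [extDiv_apply, Finsupp.mapDomain_single]

theorem extDiv_apply_extPlace (D : Divisor k Fk) (w : Place k Fk) :
    extDiv hι hX D (extPlace ι hι hX w) = D w :=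
  mapDomain_extPlace_apply hι hX D w

theorem extDiv_apply_of_notMem_range (D : Divisor k Fk) {v' : Place K FK}
    (hv' : v' ∉ Set.range (extPlace ι hι hX)) : extDiv hι hX D v' = 0 :=
  Finsupp.mapDomain_of_notMem_range _ _ hv'

theorem extDiv_injective : Function.Injective (extDiv hι hX) :=
  mapDomain_extPlace_injective hι hX

include hx in
theorem degree_extDiv (D : Divisor k Fk) :
    Divisor.degree (extDiv hι hX D) = Divisor.degree D :=
  degree_mapDomain_extPlace hι hx hX D

theorem extDiv_nonneg {D : Divisor k Fk} (hD : 0 ≤ D) : 0 ≤ extDiv hι hX D := by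
  intro v'
  by_cases hv' : v' ∈ Set.range (extPlace ι hι hX)
  · obtain ⟨w, rfl⟩ := hv'
    rw [extDiv_apply_extPlace]
    exact hD w
  · rw [extDiv_apply_of_notMem_range hι hX D hv']
    rfl

include hx in
/-- The extension of the divisor of `f` is the divisor of `ι f`. -/
theorem extDiv_apply_of_principal {D : Divisor k Fk} {f : Fk} (hf : f ≠ 0)
    (hD : ∀ w : Place k Fk, D w = w.ord f) (v' : Place K FK) :
    extDiv hι hX D v' = v'.ord (ι f) := by
  by_cases hv' : v' ∈ Set.range (extPlace ι hι hX)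
  · obtain ⟨w, rfl⟩ := hv'
    rw [extDiv_apply_extPlace, hD, ord_extPlace hι hx hX]
  · rw [extDiv_apply_of_notMem_range hι hX D hv']
    have h1 : ¬ ∃ w : Place k Fk, LiesOver ι v' w := by
      rintro ⟨w, hw⟩
      exact hv' ⟨w, (eq_extPlace_of_liesOver hι hx hX hw).symm⟩
    exact (ord_eq_zero_of_not_liesOver hι hx h1 hf).symm

include hx in
theorem extDiv_mem_principal {D : Divisor k Fk}
    (hD : D ∈ Divisor.principal (K := k) (F := Fk)) :
    extDiv hι hX D ∈ Divisor.principal (K := K) (F := FK) := by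
  obtain ⟨f, hf, hD⟩ := hD
  exact ⟨ι f, (map_ne_zero ι).mpr hf, extDiv_apply_of_principal hι hx hX hf hD⟩

include hx in
/-- Extended divisors are fixed by semilinear automorphisms fixing `ι Fk` pointwise. -/
theorem smul_extDiv (g : SemilinearAut K FK) (hg : ∀ f : Fk, g • ι f = ι f) (D : Divisor k Fk) :
    g • extDiv hι hX D = extDiv hι hX D := by
  rw [SemilinearAut.divisor_smul_def, extDiv_apply, ← Finsupp.mapDomain_comp]
  congr 1
  funext w
  exact smul_extPlace hι hx hX g hg w

/-! ### Extension of divisor classes -/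

/-- Extension of divisors of degree `0`. -/
def extDegZero : Divisor.degZero (K := k) (F := Fk) →+ Divisor.degZero (K := K) (F := FK) :=
  ((extDiv hι hX).comp (Divisor.degZero (K := k) (F := Fk)).subtype).codRestrict _ (fun D => by
    rw [Divisor.mem_degZero]
    show Divisor.degree (extDiv hι hX (D : Divisor k Fk)) = 0
    rw [degree_extDiv hι hx hX]
    exact D.2)

@[simp]
theorem coe_extDegZero (D : Divisor.degZero (K := k) (F := Fk)) :
    (extDegZero hι hx hX D : Divisor K FK) = extDiv hι hX (D : Divisor k Fk) := rfl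

/-- **Extension of divisor classes** `Pic⁰(Fk) →+ Pic⁰(FK)`. -/
def extPic0 : Pic0 k Fk →+ Pic0 K FK :=
  QuotientAddGroup.map _ _ (extDegZero hι hx hX) (by
    rintro ⟨D, hD0⟩ hD
    simp only [AddSubgroup.mem_comap, AddSubgroup.mem_addSubgroupOf] at hD ⊢
    exact extDiv_mem_principal hι hx hX hD)

theorem extPic0_mk (D : Divisor.degZero (K := k) (F := Fk)) :
    extPic0 hι hx hX (Pic0.mk D) = Pic0.mk (extDegZero hι hx hX D) := rfl

/-- The image of `extPic0` is fixed by semilinear automorphisms fixing `ι Fk` pointwise. -/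
theorem smul_extPic0 (g : SemilinearAut K FK) (hg : ∀ f : Fk, g • ι f = ι f) (y : Pic0 k Fk) :
    g • extPic0 hι hx hX y = extPic0 hι hx hX y := by
  obtain ⟨D, rfl⟩ := Pic0.mk_surjective y
  rw [extPic0_mk, SemilinearAut.pic0_smul_mk]
  refine congrArg Pic0.mk (Subtype.ext ?_)
  rw [SemilinearAut.coe_degZeroSMulHom, coe_extDegZero, smul_extDiv hι hx hX g hg]

/-! ### Injectivity -/

section Inj

variable {G : Type y} [Group G] (ρ : G →* SemilinearAut K FK)

/-- `ord` after a semilinear automorphism. -/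
theorem ord_smul_eq (g : SemilinearAut K FK) (v' : Place K FK) (f : FK) :
    v'.ord (g • f) = (g⁻¹ • v').ord f := by
  have h := SemilinearAut.ord_smul g (g⁻¹ • v') f
  rwa [smul_inv_smul] at h

include hι hx hX in
/-- **Key step of injectivity**: if the extension of `D` is principal, so is `D`. -/
theorem mem_principal_of_extDiv_mem_principal
    (hfix : ∀ (g : G) (f : Fk), ρ g • ι f = ι f)
    (hinv : ∀ h : FK, (∀ g : G, ρ g • h = h) → h ∈ Set.range ι)
    {D : Divisor k Fk} (hD : extDiv hι hX D ∈ Divisor.principal (K := K) (F := FK)) :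
    D ∈ Divisor.principal (K := k) (F := Fk) := by
  classical
  obtain ⟨h, hh0, hDh⟩ := hD
  have Hk : LHyp k Fk := lHyp_of_isGen hx
  have HK : LHyp K FK := lHyp_of_isGen hX
  obtain ⟨w₀⟩ := Hk.nonempty
  obtain ⟨π, hπ⟩ := FF.ffp_exists_irreducible w₀
  have hπ0 : (π : Fk) ≠ 0 := coe_irreducible_ne_zero hπ
  set t : FK := ι (π : Fk) with ht
  have ht0 : t ≠ 0 := (map_ne_zero ι).mpr hπ0
  set v₀ : Place K FK := extPlace ι hι hX w₀ with hv₀
  have hordt : v₀.ord t = 1 := by
    rw [ht, hv₀, ord_extPlace hι hx hX, w₀.ord_coe_irreducible hπ]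
  -- the divisor of `π`
  set Dπ : Divisor k Fk := divOf Hk hπ0 with hDπ
  have hDπ' : ∀ v' : Place K FK, extDiv hι hX Dπ v' = v'.ord t := fun v' =>
    extDiv_apply_of_principal hι hx hX hπ0 (divOf_apply Hk hπ0) v'
  -- normalisation of `h` at `v₀`
  set m : ℤ := v₀.ord h with hm
  set h' : FK := h * t ^ (-m) with hh'
  have htm0 : t ^ (-m) ≠ 0 := zpow_ne_zero _ ht0
  have hh'0 : h' ≠ 0 := mul_ne_zero hh0 htm0
  have hordh' : v₀.ord h' = 0 := by
    rw [hh', v₀.ord_mul hh0 htm0, v₀.ord_zpow, hordt, ← hm]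
    ring
  obtain ⟨c, hc⟩ := HK.residue v₀ h' (FF.ffp_mem_of_ord_nonneg v₀ hordh'.ge)
  have hc0 : c ≠ 0 := by
    rintro rfl
    rw [map_zero, sub_zero] at hc
    rcases hc with hc | hc
    · exact hh'0 hc
    · rw [hordh'] at hc
      exact lt_irrefl _ hc
  have hac0 : algebraMap K FK c⁻¹ ≠ 0 := (map_ne_zero (algebraMap K FK)).mpr (inv_ne_zero hc0)
  set h'' : FK := algebraMap K FK c⁻¹ * h' with hh''
  have hh''0 : h'' ≠ 0 := mul_ne_zero hac0 hh'0
  have hres : h'' = 1 ∨ 0 < v₀.ord (h'' - algebraMap K FK 1) := by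
    rcases hc with hc | hc
    · left
      rw [hh'', hc, ← map_mul, inv_mul_cancel₀ hc0, map_one]
    · right
      have h1 : h'' - algebraMap K FK 1 = algebraMap K FK c⁻¹ * (h' - algebraMap K FK c) := by
        rw [hh'', mul_sub, ← map_mul, inv_mul_cancel₀ hc0]
      have h2 : h' - algebraMap K FK c ≠ 0 := by
        intro h0
        rw [h0] at hc
        simp at hc
      rw [h1, v₀.ord_mul hac0 h2, FF.ord_algebraMap, zero_add]
      exact hc
  -- the divisor of `h''`
  set D₁ : Divisor k Fk := D - m • Dπ with hD₁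
  have hordh'' : ∀ v' : Place K FK, v'.ord h'' = extDiv hι hX D₁ v' := by
    intro v'
    rw [hh'', v'.ord_mul hac0 hh'0, FF.ord_algebraMap, zero_add, hh', v'.ord_mul hh0 htm0,
      v'.ord_zpow, hD₁, map_sub, map_zsmul, Finsupp.sub_apply, Finsupp.smul_apply, hDh, hDπ',
      smul_eq_mul]
    ring
  -- `h''` is invariant
  have hinvar : ∀ g : G, ρ g • h'' = h'' := by
    intro g
    have hg0 : ρ g • h'' ≠ 0 := by
      rw [SemilinearAut.smul_def]
      exact (map_ne_zero _).mpr hh''0
    have hord : ∀ v' : Place K FK, v'.ord (ρ g • h'') = v'.ord h'' := by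
      intro v'
      rw [ord_smul_eq, hordh'', hordh'', ← SemilinearAut.divisor_smul_apply,
        smul_extDiv hι hx hX (ρ g) (hfix g)]
    -- the quotient is a constant
    have hu : ∀ v' : Place K FK, 0 ≤ v'.ord (ρ g • h'' * h''⁻¹) := by
      intro v'
      rw [v'.ord_mul hg0 (inv_ne_zero hh''0), v'.ord_inv, hord]
      omega
    obtain ⟨a, ha⟩ := eq_algebraMap_of_forall_ord_nonneg HK hu
    have ha' : ρ g • h'' = algebraMap K FK a * h'' := by
      rw [← ha, mul_assoc, inv_mul_cancel₀ hh''0, mul_one]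
    rcases hres with hres | hres
    · rw [hres, smul_one]
    · -- residues at `v₀`
      have h1 : 0 < v₀.ord (ρ g • h'' - algebraMap K FK 1) := by
        have h2 := ord_smul_sub_const (ρ g) v₀ h'' 1
        rw [smul_extPlace hι hx hX (ρ g) (hfix g), map_one] at h2
        rw [h2]
        exact hres
      have ha0 : a ≠ 0 := by
        rintro rfl
        rw [map_zero, zero_mul] at ha'
        exact hg0 ha'
      have haa0 : algebraMap K FK a ≠ 0 := (map_ne_zero (algebraMap K FK)).mpr ha0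
      have h3 : 0 < v₀.ord (ρ g • h'' - algebraMap K FK a) := by
        have h4 : ρ g • h'' - algebraMap K FK a =
            algebraMap K FK a * (h'' - algebraMap K FK 1) := by
          rw [ha', map_one]; ring
        have h5 : h'' - algebraMap K FK 1 ≠ 0 := by
          intro h0
          rw [h0] at hres
          simp at hres
        rw [h4, v₀.ord_mul haa0 h5, FF.ord_algebraMap, zero_add]
        exact hres
      have h6 : (1 : K) = a := const_unique v₀ h1 h3
      rw [ha', ← h6, map_one, one_mul]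
  obtain ⟨f, hf⟩ := hinv h'' hinvar
  have hf0 : f ≠ 0 := by
    rintro rfl
    rw [map_zero] at hf
    exact hh''0 hf.symm
  -- `D₁ = div f`
  have hD₁f : D₁ = divOf Hk hf0 := by
    apply extDiv_injective hι hX
    ext v'
    rw [← hordh'', ← hf]
    exact (extDiv_apply_of_principal hι hx hX hf0 (divOf_apply Hk hf0) v').symm
  have hDeq : D = divOf Hk hf0 + m • Dπ := by
    rw [← hD₁f, hD₁]; abel
  rw [hDeq]
  have hp1 : divOf Hk hf0 ∈ Divisor.principal (K := k) (F := Fk) :=
    ⟨f, hf0, divOf_apply Hk hf0⟩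
  have hp2 : Dπ ∈ Divisor.principal (K := k) (F := Fk) :=
    ⟨(π : Fk), hπ0, divOf_apply Hk hπ0⟩
  exact add_mem hp1 (zsmul_mem hp2 m)

include hι hx hX in
/-- **`extPic0` is injective** (given (INV)). -/
theorem extPic0_injective (hfix : ∀ (g : G) (f : Fk), ρ g • ι f = ι f)
    (hinv : ∀ h : FK, (∀ g : G, ρ g • h = h) → h ∈ Set.range ι) :
    Function.Injective (extPic0 hι hx hX) := by
  rw [injective_iff_map_eq_zero]
  intro y hy
  obtain ⟨D, rfl⟩ := Pic0.mk_surjective y
  rw [extPic0_mk] at hy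
  have h1 : extDegZero hι hx hX D ∈
      (Divisor.principal (K := K) (F := FK)).addSubgroupOf (Divisor.degZero (K := K) (F := FK)) :=
    (QuotientAddGroup.eq_zero_iff _).mp hy
  rw [AddSubgroup.mem_addSubgroupOf, coe_extDegZero] at h1
  have h2 := mem_principal_of_extDiv_mem_principal hι hx hX ρ hfix hinv h1
  exact (QuotientAddGroup.eq_zero_iff _).mpr (AddSubgroup.mem_addSubgroupOf.mpr h2)

end Inj

/-! ### Surjectivity on classes with open stabiliser; torsion -/

section Surj

variable (ρ : (K ≃ₐ[k] K) →* SemilinearAut K FK)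

include hι hx hX in
/-- **A class fixed by a subgroup of finite index of `Aut(K/k)` is defined over `k`.** -/
theorem mem_range_extPic0_of_finiteIndex
    (hbase : ∀ (σ : K ≃ₐ[k] K) (c : K), SemilinearAut.baseAut (ρ σ) c = σ c)
    (hfix : ∀ (σ : K ≃ₐ[k] K) (f : Fk), ρ σ • ι f = ι f)
    (H : Subgroup (K ≃ₐ[k] K)) [H.FiniteIndex] (z : Pic0 K FK)
    (hz : ∀ σ ∈ H, ρ σ • z = z) : z ∈ Set.range (extPic0 hι hx hX) := by
  classical
  have Hk : LHyp k Fk := lHyp_of_isGen hx
  have HK : LHyp K FK := lHyp_of_isGen hX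
  have hR : RiemannHyp K FK := riemann_inequality_of_isGen hX
  obtain ⟨w₀⟩ := Hk.nonempty
  set P₀ : Place K FK := extPlace ι hι hX w₀ with hP₀
  have hP₀fix : ∀ σ : K ≃ₐ[k] K, ρ σ • P₀ = P₀ := fun σ =>
    smul_extPlace hι hx hX (ρ σ) (hfix σ) w₀
  set E : Divisor K FK := normalFormPic HK hR P₀ z with hE
  set m : ℕ := minPolePic HK hR P₀ z with hm
  have hEfix : ∀ σ ∈ H, ρ σ • E = E := by
    intro σ hσ
    rw [hE, ← normalFormPic_smul HK hR P₀ (ρ σ) (hP₀fix σ) z, hz σ hσ]
  obtain ⟨E₀, hE₀, -⟩ :=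
    exists_mapDomain_extPlace_eq_of_finiteIndex hι hx hX ρ hbase hfix H E hEfix
  have hE₀' : extDiv hι hX E₀ = E := hE₀
  set D₀ : Divisor k Fk := E₀ - Finsupp.single w₀ (m : ℤ) with hD₀
  have hextD₀ : extDiv hι hX D₀ = E - Finsupp.single P₀ (m : ℤ) := by
    rw [hD₀, map_sub, hE₀', extDiv_single]
  have hdeg : D₀ ∈ Divisor.degZero (K := k) (F := Fk) := by
    rw [Divisor.mem_degZero, ← degree_extDiv hι hx hX, hextD₀]
    exact Divisor.mem_degZero.mp (sub_single_mem_degZero HK hR P₀ z)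
  refine ⟨Pic0.mk ⟨D₀, hdeg⟩, ?_⟩
  rw [extPic0_mk, ← mk_normalFormPic' HK hR P₀ z]
  exact congrArg Pic0.mk (Subtype.ext hextD₀)

end Surj

/-! ### Torsion -/

section Torsion

theorem extPic0_mem_torsion {n : ℕ} {y : Pic0 k Fk} (hy : y ∈ Pic0.torsion k Fk n) :
    extPic0 hι hx hX y ∈ Pic0.torsion K FK n := by
  rw [Pic0.mem_torsion] at hy ⊢
  rw [← map_zsmul, hy, map_zero]

/-- `extPic0` on `n`-torsion. -/
def extTorsion (n : ℕ) : Pic0.torsion k Fk n →+ Pic0.torsion K FK n :=
  ((extPic0 hι hx hX).comp (Pic0.torsion k Fk n).subtype).codRestrict _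
    (fun y => extPic0_mem_torsion hι hx hX y.2)

@[simp]
theorem coe_extTorsion (n : ℕ) (y : Pic0.torsion k Fk n) :
    (extTorsion hι hx hX n y : Pic0 K FK) = extPic0 hι hx hX (y : Pic0 k Fk) := rfl

variable (ρ : (K ≃ₐ[k] K) →* SemilinearAut K FK)

/-- If `Pic⁰(FK)[n]` is finite, every element of it is fixed by a subgroup of finite index of
`Aut(K/k)`. -/
theorem exists_finiteIndex_forall_smul_eq (n : ℕ) [Finite (Pic0.torsion K FK n)]
    (z : Pic0.torsion K FK n) :
    ∃ H : Subgroup (K ≃ₐ[k] K), H.FiniteIndex ∧ ∀ σ ∈ H, ρ σ • (z : Pic0 K FK) = z := by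
  classical
  let _ : MulAction (K ≃ₐ[k] K) (Pic0.torsion K FK n) := MulAction.compHom _ ρ
  refine ⟨MulAction.stabilizer (K ≃ₐ[k] K) z, ?_, ?_⟩
  · have : Finite ((K ≃ₐ[k] K) ⧸ MulAction.stabilizer (K ≃ₐ[k] K) z) :=
      Finite.of_equiv _ (MulAction.orbitEquivQuotientStabilizer (K ≃ₐ[k] K) z)
    exact Subgroup.finiteIndex_of_finite_quotient
  · intro σ hσ
    have h1 : ρ σ • z = z := MulAction.mem_stabilizer_iff.mp hσ
    have h2 := congrArg (Subtype.val : Pic0.torsion K FK n → Pic0 K FK) h1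
    rwa [SemilinearAut.coe_torsion_smul] at h2

include hι hx hX in
theorem extTorsion_injective
    (hfix : ∀ (σ : K ≃ₐ[k] K) (f : Fk), ρ σ • ι f = ι f)
    (hinv : ∀ h : FK, (∀ σ : K ≃ₐ[k] K, ρ σ • h = h) → h ∈ Set.range ι) (n : ℕ) :
    Function.Injective (extTorsion hι hx hX n) := by
  intro y y' h
  have h1 := congrArg (Subtype.val : Pic0.torsion K FK n → Pic0 K FK) h
  rw [coe_extTorsion, coe_extTorsion] at h1
  exact Subtype.ext (extPic0_injective hι hx hX ρ hfix hinv h1)

include hι hx hX in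
/-- **Surjectivity on torsion**, given only that the torsion over `K` is finite. -/
theorem extTorsion_surjective
    (hbase : ∀ (σ : K ≃ₐ[k] K) (c : K), SemilinearAut.baseAut (ρ σ) c = σ c)
    (hfix : ∀ (σ : K ≃ₐ[k] K) (f : Fk), ρ σ • ι f = ι f)
    (hinv : ∀ h : FK, (∀ σ : K ≃ₐ[k] K, ρ σ • h = h) → h ∈ Set.range ι)
    (n : ℕ) [Finite (Pic0.torsion K FK n)] :
    Function.Surjective (extTorsion hι hx hX n) := by
  intro z
  obtain ⟨H, hH, hz⟩ := exists_finiteIndex_forall_smul_eq ρ n z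
  have := hH
  obtain ⟨y, hy⟩ := mem_range_extPic0_of_finiteIndex hι hx hX ρ hbase hfix H (z : Pic0 K FK) hz
  have hytors : y ∈ Pic0.torsion k Fk n := by
    rw [Pic0.mem_torsion]
    apply extPic0_injective hι hx hX ρ hfix hinv
    rw [map_zsmul, hy, map_zero]
    exact Pic0.mem_torsion.mp z.2
  exact ⟨⟨y, hytors⟩, Subtype.ext hy⟩

/-- **(D5), abstract form**: `Pic⁰(Fk)[n] ≃+ Pic⁰(FK)[n]`, given that the right side is finite. -/
def torsionEquiv
    (hbase : ∀ (σ : K ≃ₐ[k] K) (c : K), SemilinearAut.baseAut (ρ σ) c = σ c)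
    (hfix : ∀ (σ : K ≃ₐ[k] K) (f : Fk), ρ σ • ι f = ι f)
    (hinv : ∀ h : FK, (∀ σ : K ≃ₐ[k] K, ρ σ • h = h) → h ∈ Set.range ι)
    (n : ℕ) [Finite (Pic0.torsion K FK n)] :
    Pic0.torsion k Fk n ≃+ Pic0.torsion K FK n :=
  AddEquiv.ofBijective (extTorsion hι hx hX n)
    ⟨extTorsion_injective hι hx hX ρ hfix hinv n,
      extTorsion_surjective hι hx hX ρ hbase hfix hinv n⟩

theorem coe_torsionEquiv_apply
    (hbase : ∀ (σ : K ≃ₐ[k] K) (c : K), SemilinearAut.baseAut (ρ σ) c = σ c)
    (hfix : ∀ (σ : K ≃ₐ[k] K) (f : Fk), ρ σ • ι f = ι f)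
    (hinv : ∀ h : FK, (∀ σ : K ≃ₐ[k] K, ρ σ • h = h) → h ∈ Set.range ι)
    (n : ℕ) [Finite (Pic0.torsion K FK n)] (y : Pic0.torsion k Fk n) :
    (torsionEquiv hι hx hX ρ hbase hfix hinv n y : Pic0 K FK) =
      extPic0 hι hx hX (y : Pic0 k Fk) := rfl

/-- The torsion over `K` is fixed by `Aut(K/k)`. -/
theorem smul_torsionEquiv_apply
    (hbase : ∀ (σ : K ≃ₐ[k] K) (c : K), SemilinearAut.baseAut (ρ σ) c = σ c)
    (hfix : ∀ (σ : K ≃ₐ[k] K) (f : Fk), ρ σ • ι f = ι f)
    (hinv : ∀ h : FK, (∀ σ : K ≃ₐ[k] K, ρ σ • h = h) → h ∈ Set.range ι)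
    (n : ℕ) [Finite (Pic0.torsion K FK n)] (σ : K ≃ₐ[k] K) (y : Pic0.torsion k Fk n) :
    ρ σ • torsionEquiv hι hx hX ρ hbase hfix hinv n y =
      torsionEquiv hι hx hX ρ hbase hfix hinv n y := by
  apply Subtype.ext
  rw [SemilinearAut.coe_torsion_smul, coe_torsionEquiv_apply, smul_extPic0 hι hx hX (ρ σ) (hfix σ)]

include hι hx hX in
/-- Finiteness descends: `Pic⁰(Fk)[n]` is finite if `Pic⁰(FK)[n]` is (only injectivity is used). -/
theorem finite_torsion
    (hfix : ∀ (σ : K ≃ₐ[k] K) (f : Fk), ρ σ • ι f = ι f)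
    (hinv : ∀ h : FK, (∀ σ : K ≃ₐ[k] K, ρ σ • h = h) → h ∈ Set.range ι)
    (n : ℕ) [Finite (Pic0.torsion K FK n)] : Finite (Pic0.torsion k Fk n) :=
  Finite.of_injective _ (extTorsion_injective hι hx hX ρ hfix hinv n)

end Torsion

end

end Fermat.Agent.J.DESC.ExtPic22
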