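/-
Program J (S30), chapter J2 DESCENT (helper24): **the output of J2.**
`k = ℚ̄ = AlgebraicClosure ℚ`, `K = ℂ` (via the Prelude's `complexEmbedding`),
`F₀ = modularFunctionFieldFull N`:

* `bcQC N : Fbar N →+* F_ℂ N` (coefficientwise), `extPic0C N : JZero N →+ Pic⁰(F_ℂ)`, injective;
* `torsionEquivC N n : J₀(N)(ℚ̄)[n] ≃+ Pic⁰(F_ℂ)[n]` given that the right side is finite (J1),
  natural in `n` (it is the restriction of the single homomorphism `extPic0C`);
* `finite_torsion_bar`: finiteness of `J₀(N)(ℚ̄)[n]` from finiteness over `ℂ`;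
* transport of Kummer data: `n • D = div f` over `ℚ̄` ⇒ `n • extDivC D = div (bc f)` over `ℂ`.
-/
import Mathlib
import Fermat.Prelude.Def_GaloisRep_ComplexConjugation
import Fermat.Agent.J.DESC.DescentC24
import Fermat.Agent.J.DESC.ExtPic22

set_option autoImplicit false
set_option linter.unusedSectionVars false
set_option linter.style.longLine false

namespace Fermat.Agent.J.DESC.DescentFinal24

open ModularCurve HahnSeries AlgebraicCurve Fermat.Agent.X0
open Fermat.Agent.J.DESC.ConstExt24 Fermat.Agent.J.DESC.LaurentExt24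
open Fermat.Agent.J.DESC.DescentC24 Fermat.Agent.J.DESC.ExtPic22
open Fermat.Agent.ES.KUM.FieldL25

noncomputable section

attribute [local instance] instAlgebraQbarComplex instTowerQbarComplex

/-- `ℚ̄`. -/
abbrev Qb : Type := AlgebraicClosure ℚ

variable (N : ℕ) [NeZero N]

/-- `F_ℚ̄ = ℚ̄ · F_N ⊂ ℚ̄((q))` (the carrier of the Prelude's `modularFunctionFieldBar N`). -/
abbrev FQ : Type := ↥(laurentBaseChange Qb (modularFunctionFieldFull N))

/-- `F_ℂ = ℂ · F_N ⊂ ℂ((q))`. -/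
abbrev FCx : Type := ↥(laurentBaseChange ℂ (modularFunctionFieldFull N))

/-- Base change of modular functions `F_ℚ̄ → F_ℂ` along `complexEmbedding`. -/
def bcQC : FQ N →+* FCx N := bc (k := Qb) (K := ℂ) (modularFunctionFieldFull N)

theorem coe_bcQC (f : FQ N) :
    ((bcQC N f : FCx N) : LaurentSeries ℂ) =
      coeffMap (algebraMap Qb ℂ) (f : LaurentSeries Qb) := rfl

theorem coeff_bcQC (f : FQ N) (n : ℤ) :
    ((bcQC N f : FCx N) : LaurentSeries ℂ).coeff n =
      complexEmbedding ((f : LaurentSeries Qb).coeff n) := by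
  rw [coe_bcQC, coeffMap_coeff]
  rfl

theorem bcQC_injective : Function.Injective (bcQC N) := bc_injective _

theorem isConstExt_bcQC : IsConstExt (k := Qb) (K := ℂ) (bcQC N) :=
  isConstExt_bc (k := Qb) (K := ℂ) (modularFunctionFieldFull N)

theorem bcQC_jL : bcQC N (jL Qb N) = jL ℂ N := bc_jL Qb ℂ N

/-- The action of `Aut(ℂ/ℚ̄)` on `F_ℂ`. -/
def rhoC : (ℂ ≃ₐ[Qb] ℂ) →* SemilinearAut ℂ (FCx N) := rho (k := Qb) (K := ℂ) (modularFunctionFieldFull N)

theorem baseAut_rhoC (σ : ℂ ≃ₐ[Qb] ℂ) (c : ℂ) : SemilinearAut.baseAut (rhoC N σ) c = σ c := rfl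

theorem rhoC_smul_bcQC (σ : ℂ ≃ₐ[Qb] ℂ) (f : FQ N) : rhoC N σ • bcQC N f = bcQC N f :=
  rho_smul_bc (modularFunctionFieldFull N) σ f

theorem mem_range_bcQC_of_fixed (h : FCx N) (hfix : ∀ σ : ℂ ≃ₐ[Qb] ℂ, rhoC N σ • h = h) :
    h ∈ Set.range (bcQC N) :=
  mem_range_bc_of_fixed (k := Qb) (K := ℂ) (modularFunctionFieldFull N) h hfix

/-! ### Places, divisors, classes -/

/-- Extension of places of `F_ℚ̄` to `F_ℂ`. -/
def extPlaceC : Place Qb (FQ N) → Place ℂ (FCx N) :=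
  extPlace (bcQC N) (isConstExt_bcQC N) (isGen_jL ℂ N)

theorem ord_extPlaceC (w : Place Qb (FQ N)) (f : FQ N) :
    (extPlaceC N w).ord (bcQC N f) = w.ord f :=
  ord_extPlace (isConstExt_bcQC N) (isGen_jL Qb N) (isGen_jL ℂ N) w f

theorem extPlaceC_injective : Function.Injective (extPlaceC N) :=
  extPlace_injective (isConstExt_bcQC N) (isGen_jL ℂ N)

/-- Extension of divisors. -/
def extDivC : Divisor Qb (FQ N) →+ Divisor ℂ (FCx N) :=
  extDiv (isConstExt_bcQC N) (isGen_jL ℂ N)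

theorem extDivC_apply_extPlaceC (D : Divisor Qb (FQ N)) (w : Place Qb (FQ N)) :
    extDivC N D (extPlaceC N w) = D w :=
  extDiv_apply_extPlace (isConstExt_bcQC N) (isGen_jL ℂ N) D w

theorem degree_extDivC (D : Divisor Qb (FQ N)) :
    Divisor.degree (extDivC N D) = Divisor.degree D :=
  degree_extDiv (isConstExt_bcQC N) (isGen_jL Qb N) (isGen_jL ℂ N) D

/-- **Transport of Kummer data**: if `n • D = div f` over `ℚ̄` then `n • extDivC D = div (bc f)`
over `ℂ`. -/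
theorem extDivC_datum (n : ℤ) {D : Divisor Qb (FQ N)} {f : FQ N} (hf : f ≠ 0)
    (hD : ∀ w : Place Qb (FQ N), n * D w = w.ord f) (v : Place ℂ (FCx N)) :
    n * extDivC N D v = v.ord (bcQC N f) := by
  have h := extDiv_apply_of_principal (isConstExt_bcQC N) (isGen_jL Qb N) (isGen_jL ℂ N)
    (D := n • D) hf (fun w => by rw [Finsupp.smul_apply, smul_eq_mul, hD w]) v
  rw [← h]
  show n * extDivC N D v = extDivC N (n • D) v
  rw [map_zsmul, Finsupp.smul_apply, smul_eq_mul]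

theorem bcQC_ne_zero {f : FQ N} (hf : f ≠ 0) : bcQC N f ≠ 0 :=
  (map_ne_zero_iff _ (bcQC_injective N)).mpr hf

/-- **Base change of divisor classes** `J₀(N)(ℚ̄) = Pic⁰(F_ℚ̄) →+ Pic⁰(F_ℂ)`. -/
def extPic0C : Pic0 Qb (FQ N) →+ Pic0 ℂ (FCx N) :=
  extPic0 (isConstExt_bcQC N) (isGen_jL Qb N) (isGen_jL ℂ N)

theorem extPic0C_mk (D : Divisor.degZero (K := Qb) (F := FQ N)) :
    extPic0C N (Pic0.mk D) =
      Pic0.mk (extDegZero (isConstExt_bcQC N) (isGen_jL Qb N) (isGen_jL ℂ N) D) := rfl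

theorem coe_extDegZeroC (D : Divisor.degZero (K := Qb) (F := FQ N)) :
    ((extDegZero (isConstExt_bcQC N) (isGen_jL Qb N) (isGen_jL ℂ N) D :
      Divisor.degZero (K := ℂ) (F := FCx N)) : Divisor ℂ (FCx N)) = extDivC N (D : Divisor Qb (FQ N)) :=
  coe_extDegZero _ _ _ D

/-- **Injectivity of base change on `Pic⁰`.** -/
theorem extPic0C_injective : Function.Injective (extPic0C N) :=
  extPic0_injective (isConstExt_bcQC N) (isGen_jL Qb N) (isGen_jL ℂ N) (rhoC N)
    (rhoC_smul_bcQC N) (mem_range_bcQC_of_fixed N)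

/-- The classes in the image are fixed by `Aut(ℂ/ℚ̄)`. -/
theorem rhoC_smul_extPic0C (σ : ℂ ≃ₐ[Qb] ℂ) (y : Pic0 Qb (FQ N)) :
    rhoC N σ • extPic0C N y = extPic0C N y :=
  smul_extPic0 (isConstExt_bcQC N) (isGen_jL Qb N) (isGen_jL ℂ N) (rhoC N σ)
    (rhoC_smul_bcQC N σ) y

/-! ### Torsion -/

/-- **(J2) the torsion of `J₀(N)` over `ℚ̄` and over `ℂ` agree**, given finiteness over `ℂ` (J1). -/
def torsionEquivC (n : ℕ) [Finite (Pic0.torsion ℂ (FCx N) n)] :
    Pic0.torsion Qb (FQ N) n ≃+ Pic0.torsion ℂ (FCx N) n :=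
  torsionEquiv (isConstExt_bcQC N) (isGen_jL Qb N) (isGen_jL ℂ N) (rhoC N) (baseAut_rhoC N)
    (rhoC_smul_bcQC N) (mem_range_bcQC_of_fixed N) n

theorem coe_torsionEquivC_apply (n : ℕ) [Finite (Pic0.torsion ℂ (FCx N) n)]
    (y : Pic0.torsion Qb (FQ N) n) :
    (torsionEquivC N n y : Pic0 ℂ (FCx N)) = extPic0C N (y : Pic0 Qb (FQ N)) := rfl

/-- Every `n`-torsion class over `ℂ` is the base change of a unique `n`-torsion class over `ℚ̄`. -/
theorem exists_extPic0C_eq (n : ℕ) [Finite (Pic0.torsion ℂ (FCx N) n)] {z : Pic0 ℂ (FCx N)}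
    (hz : z ∈ Pic0.torsion ℂ (FCx N) n) :
    ∃ y ∈ Pic0.torsion Qb (FQ N) n, extPic0C N y = z := by
  obtain ⟨y, hy⟩ := (torsionEquivC N n).surjective ⟨z, hz⟩
  exact ⟨y, y.2, by rw [← coe_torsionEquivC_apply, hy]⟩

/-- **Finiteness of `J₀(N)(ℚ̄)[n]`** from finiteness over `ℂ` (only injectivity is used). -/
theorem finite_torsion_bar (n : ℕ) [Finite (Pic0.torsion ℂ (FCx N) n)] :
    Finite (Pic0.torsion Qb (FQ N) n) :=
  finite_torsion (isConstExt_bcQC N) (isGen_jL Qb N) (isGen_jL ℂ N) (rhoC N)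
    (rhoC_smul_bcQC N) (mem_range_bcQC_of_fixed N) n

/-- The same, in the `JZero` / set shape used by `TateJZero13`. -/
theorem finite_setOf_nsmul_eq_zero (n : ℕ) [Finite (Pic0.torsion ℂ (FCx N) n)] :
    {y : JZero N | n • y = 0}.Finite := by
  have := finite_torsion_bar N n
  have h : {y : JZero N | n • y = 0} = ((Pic0.torsion Qb (FQ N) n : AddSubgroup (Pic0 Qb (FQ N))) : Set (Pic0 Qb (FQ N))) := by
    ext y
    rw [Set.mem_ofPred_eq, SetLike.mem_coe, Pic0.mem_torsion, natCast_zsmul]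
  rw [h]
  exact Set.toFinite _

end

end Fermat.Agent.J.DESC.DescentFinal24
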