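/-
Program J (S30), chapter J2 DESCENT → J3 (helper22): **correspondences commute with the extension
of constants.**

Two constant field extensions over the same `k ⊆ K` (`J/DESC/ConstExt24`):
`ι : Fk →+* FK`, `ι' : Fk' →+* FK'`, and morphisms `φ₀ : Fk →ₐ[k] Fk'`, `φ : FK →ₐ[K] FK'` with
`φ ∘ ι = ι' ∘ φ₀` (e.g. the degeneracy maps `α`, `β` over `ℚ̄` and over `ℂ`). Then

* `restrictAlong_extPlace` : `(ext' w') ∘ φ = ext (w' ∘ φ₀)`;
* `ramificationIndexAlong_extPlace` : `e_φ (ext' w') = e_{φ₀} (w')`;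
* `mem_range_extPlace_of_restrictAlong` : a place of `FK'` over an extended place of `FK` is extended;
* `pullbackAlong_extDiv` : `φ^* (extDiv D) = extDiv' (φ₀^* D)`;
* `pushforwardAlong_extDiv` : `φ_* (extDiv' D') = extDiv (φ₀_* D')`;
* `correspondence_extDiv`, `pic0_correspondence_extPic0` :
  `(ψ_* φ^*) (extPic0 y) = extPic0 ((ψ₀_* φ₀^*) y)` — the shape of the Prelude's `heckePic0Bar`.
-/
import Mathlib
import Fermat.Prelude.Def_AlgebraicCurve_Correspondence
import Fermat.Agent.J.DESC.ExtPic22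

set_option autoImplicit false
set_option linter.unusedSectionVars false
set_option linter.style.longLine false
set_option linter.style.haveILetI false

namespace Fermat.Agent.J.DESC.ExtPicHecke22

open AlgebraicCurve Fermat.Agent.X0 Fermat.Agent.J.DESC.ConstExt24
  Fermat.Agent.J.DESC.ExtPic22

noncomputable section

/-! ### Generic facts on `restrictAlong` -/

section Generic

variable {K F F' : Type*} [Field K] [Field F] [Field F'] [Algebra K F] [Algebra K F']

theorem mem_restrictAlong_iff (φ : F →ₐ[K] F') (hφ : φ.toRingHom.IsIntegral) (w : Place K F')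
    (a : F) : a ∈ (w.restrictAlong φ hφ).toValuationSubring ↔ φ a ∈ w.toValuationSubring :=
  Iff.rfl

theorem ramificationIndexAlong_pos (φ : F →ₐ[K] F') (hφ : φ.toRingHom.IsIntegral)
    (w : Place K F') : 0 < w.ramificationIndexAlong φ := by
  letI := algebraAlong φ
  haveI := isScalarTower_along φ
  haveI := isIntegral_along φ hφ
  exact w.ramificationIndex_pos (F := F)

theorem inertiaDegAlong_eq_one_of_deg (φ : F →ₐ[K] F') (hφ : φ.toRingHom.IsIntegral)
    (w : Place K F') (hw : w.deg = 1) : w.inertiaDegAlong φ hφ = 1 := by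
  letI := algebraAlong φ
  haveI := isScalarTower_along φ
  haveI := isIntegral_along φ hφ
  have h := w.deg_restrict_mul_inertiaDeg (F := F)
  rw [hw] at h
  exact Nat.eq_one_of_mul_eq_one_left h

end Generic

universe u v w x w' x'

variable {k : Type u} {K : Type v} {Fk : Type w} {FK : Type x} {Fk' : Type w'} {FK' : Type x'}
  [Field k] [Field K] [Field Fk] [Field FK] [Field Fk'] [Field FK']
  [Algebra k K] [Algebra k Fk] [Algebra K FK] [Algebra k Fk'] [Algebra K FK']
  [IsAlgClosed k] [CharZero k] [IsAlgClosed K] [CharZero K]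
  {ι : Fk →+* FK} (hι : IsConstExt (k := k) (K := K) ι) {x : Fk} (hx : FF.IsGen k x)
  {X : FK} (hX : FF.IsGen K X)
  {ι' : Fk' →+* FK'} (hι' : IsConstExt (k := k) (K := K) ι') {x' : Fk'} (hx' : FF.IsGen k x')
  {X' : FK'} (hX' : FF.IsGen K X')
  (φ₀ : Fk →ₐ[k] Fk') (φ : FK →ₐ[K] FK')
  (hφ₀ : φ₀.toRingHom.IsIntegral) (hφ : φ.toRingHom.IsIntegral)

include hι hx hX hι' hx' hX' hφ₀ hφ

/-! ### Places -/

/-- "Lying over" is compatible with restriction along compatible morphisms. -/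
theorem liesOver_restrictAlong (hc : ∀ f : Fk, φ (ι f) = ι' (φ₀ f))
    {v' : Place K FK'} {w' : Place k Fk'} (h : LiesOver ι' v' w') :
    LiesOver ι (v'.restrictAlong φ hφ) (w'.restrictAlong φ₀ hφ₀) := by
  intro a
  rw [mem_restrictAlong_iff, mem_restrictAlong_iff, hc]
  exact h _

/-- **`(ext' w') ∘ φ = ext (w' ∘ φ₀)`.** -/
theorem restrictAlong_extPlace (hc : ∀ f : Fk, φ (ι f) = ι' (φ₀ f)) (w' : Place k Fk') :
    (extPlace ι' hι' hX' w').restrictAlong φ hφ =
      extPlace ι hι hX (w'.restrictAlong φ₀ hφ₀) :=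
  eq_extPlace_of_liesOver hι hx hX
    (liesOver_restrictAlong hι hx hX hι' hx' hX' φ₀ φ hφ₀ hφ hc (extPlace_liesOver hι' hX' w'))

/-- **`e_φ (ext' w') = e_{φ₀} (w')`.** -/
theorem ramificationIndexAlong_extPlace (hc : ∀ f : Fk, φ (ι f) = ι' (φ₀ f))
    (w' : Place k Fk') :
    (extPlace ι' hι' hX' w').ramificationIndexAlong φ = w'.ramificationIndexAlong φ₀ := by
  obtain ⟨π, hπ⟩ := FF.ffp_exists_irreducible (w'.restrictAlong φ₀ hφ₀)
  have h1 := Place.ord_restrictAlong φ hφ (extPlace ι' hι' hX' w') (ι (π : Fk))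
  rw [restrictAlong_extPlace hι hx hX hι' hx' hX' φ₀ φ hφ₀ hφ hc w', ord_extPlace hι hx hX,
    Place.ord_coe_irreducible _ hπ, mul_one, hc, ord_extPlace hι' hx' hX',
    Place.ord_restrictAlong φ₀ hφ₀ w' (π : Fk), Place.ord_coe_irreducible _ hπ, mul_one] at h1
  exact_mod_cast h1.symm

/-- A place of `FK'` whose restriction along `φ` is an extended place is itself extended, from
a place with the expected restriction. -/
theorem exists_eq_extPlace_of_restrictAlong (hc : ∀ f : Fk, φ (ι f) = ι' (φ₀ f))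
    {W : Place K FK'} {w : Place k Fk} (hW : W.restrictAlong φ hφ = extPlace ι hι hX w) :
    ∃ w' : Place k Fk', w'.restrictAlong φ₀ hφ₀ = w ∧ W = extPlace ι' hι' hX' w' := by
  obtain ⟨π, hπ⟩ := FF.ffp_exists_irreducible w
  have hπ0 : (π : Fk) ≠ 0 := coe_irreducible_ne_zero hπ
  have h1 := Place.ord_restrictAlong φ hφ W (ι (π : Fk))
  rw [hW, ord_extPlace hι hx hX, Place.ord_coe_irreducible _ hπ, mul_one, hc] at h1
  have hpos : 0 < W.ord (ι' (φ₀ (π : Fk))) := by
    rw [h1]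
    exact_mod_cast ramificationIndexAlong_pos φ hφ W
  have hφπ0 : φ₀ (π : Fk) ≠ 0 := (map_ne_zero φ₀.toRingHom).mpr hπ0
  obtain ⟨w', rfl⟩ := (mem_range_extPlace_iff hι' hx' hX' W).mpr ⟨_, hφπ0, hpos⟩
  refine ⟨w', ?_, rfl⟩
  rw [restrictAlong_extPlace hι hx hX hι' hx' hX' φ₀ φ hφ₀ hφ hc w'] at hW
  exact extPlace_injective hι hX hW

theorem mem_range_extPlace_of_restrictAlong (hc : ∀ f : Fk, φ (ι f) = ι' (φ₀ f))
    {W : Place K FK'} (hW : W.restrictAlong φ hφ ∈ Set.range (extPlace ι hι hX)) :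
    W ∈ Set.range (extPlace ι' hι' hX') := by
  obtain ⟨w, hw⟩ := hW
  obtain ⟨w', -, rfl⟩ :=
    exists_eq_extPlace_of_restrictAlong hι hx hX hι' hx' hX' φ₀ φ hφ₀ hφ hc hw.symm
  exact ⟨w', rfl⟩

/-! ### Divisors -/

/-- **Pull-back commutes with the extension of constants.** -/
theorem pullbackAlong_extDiv [HasPrincipalDivisors k Fk'] [HasPrincipalDivisors K FK']
    (hc : ∀ f : Fk, φ (ι f) = ι' (φ₀ f)) (D : Divisor k Fk) :
    Divisor.pullbackAlong φ hφ (extDiv hι hX D) =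
      extDiv hι' hX' (Divisor.pullbackAlong φ₀ hφ₀ D) := by
  ext W
  rw [Divisor.pullbackAlong_apply]
  by_cases hW : W ∈ Set.range (extPlace ι' hι' hX')
  · obtain ⟨w', rfl⟩ := hW
    rw [restrictAlong_extPlace hι hx hX hι' hx' hX' φ₀ φ hφ₀ hφ hc w', extDiv_apply_extPlace,
      extDiv_apply_extPlace, Divisor.pullbackAlong_apply,
      ramificationIndexAlong_extPlace hι hx hX hι' hx' hX' φ₀ φ hφ₀ hφ hc w']
  · rw [extDiv_apply_of_notMem_range hι' hX' _ hW, extDiv_apply_of_notMem_range hι hX D, mul_zero]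
    exact fun h =>
      hW (mem_range_extPlace_of_restrictAlong hι hx hX hι' hx' hX' φ₀ φ hφ₀ hφ hc h)

/-- **Push-forward commutes with the extension of constants.** -/
theorem pushforwardAlong_extDiv (hc : ∀ f : Fk, φ (ι f) = ι' (φ₀ f)) (D' : Divisor k Fk') :
    Divisor.pushforwardAlong φ hφ (extDiv hι' hX' D') =
      extDiv hι hX (Divisor.pushforwardAlong φ₀ hφ₀ D') := by
  induction D' using Finsupp.induction_linear with
  | zero => simp
  | add D E hD hE => rw [map_add, map_add, hD, hE, map_add, map_add]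
  | single w' n =>
    rw [extDiv_single, Divisor.pushforwardAlong_single, Divisor.pushforwardAlong_single,
      extDiv_single, restrictAlong_extPlace hι hx hX hι' hx' hX' φ₀ φ hφ₀ hφ hc w',
      inertiaDegAlong_eq_one_of_deg φ hφ _ (FF.deg_eq_one hX' _),
      inertiaDegAlong_eq_one_of_deg φ₀ hφ₀ _ (FF.deg_eq_one hx' _)]

section Corr

variable (ψ₀ : Fk →ₐ[k] Fk') (ψ : FK →ₐ[K] FK')
  (hψ₀ : ψ₀.toRingHom.IsIntegral) (hψ : ψ.toRingHom.IsIntegral)
  [HasPrincipalDivisors k Fk'] [HasPrincipalDivisors K FK']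

/-- **The divisor correspondence `ψ_* φ^*` commutes with the extension of constants.** -/
theorem correspondence_extDiv (hcφ : ∀ f : Fk, φ (ι f) = ι' (φ₀ f))
    (hcψ : ∀ f : Fk, ψ (ι f) = ι' (ψ₀ f)) (D : Divisor k Fk) :
    Divisor.correspondence φ ψ hφ hψ (extDiv hι hX D) =
      extDiv hι hX (Divisor.correspondence φ₀ ψ₀ hφ₀ hψ₀ D) := by
  rw [Divisor.correspondence_apply, Divisor.correspondence_apply,
    pullbackAlong_extDiv hι hx hX hι' hx' hX' φ₀ φ hφ₀ hφ hcφ,
    pushforwardAlong_extDiv hι hx hX hι' hx' hX' ψ₀ ψ hψ₀ hψ hcψ]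

/-- **The correspondence on `Pic⁰` commutes with the extension of constants** (the shape of the
Prelude's `heckePic0Bar = Pic0.correspondence β α …`). -/
theorem pic0_correspondence_extPic0 (hcφ : ∀ f : Fk, φ (ι f) = ι' (φ₀ f))
    (hcψ : ∀ f : Fk, ψ (ι f) = ι' (ψ₀ f))
    (hFI₀ : FundamentalIdentityAlong k φ₀ hφ₀) (hfin₀ : FiniteAlong k ψ₀)
    (hN₀ : NormFormulaAlong k ψ₀ hfin₀)
    (hFI : FundamentalIdentityAlong K φ hφ) (hfin : FiniteAlong K ψ)
    (hN : NormFormulaAlong K ψ hfin) (y : Pic0 k Fk) :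
    Pic0.correspondence φ ψ hφ hψ hFI hfin hN (extPic0 hι hx hX y) =
      extPic0 hι hx hX (Pic0.correspondence φ₀ ψ₀ hφ₀ hψ₀ hFI₀ hfin₀ hN₀ y) := by
  obtain ⟨D, rfl⟩ := Pic0.mk_surjective y
  rw [extPic0_mk, Pic0.correspondence_mk, Pic0.correspondence_mk, extPic0_mk]
  refine congrArg Pic0.mk (Subtype.ext ?_)
  rw [Pic0.coe_degZeroCorrespondence, coe_extDegZero, coe_extDegZero,
    Pic0.coe_degZeroCorrespondence]
  exact correspondence_extDiv hι hx hX hι' hx' hX' φ₀ φ hφ₀ hφ ψ₀ ψ hψ₀ hψ hcφ hcψ D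

end Corr

end

end Fermat.Agent.J.DESC.ExtPicHecke22
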