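/-
Program J (helper22): **bridge between the two base changes `F̄_N → F_ℂ`** —
`DescentFinal24.bcQC N` (coefficientwise along the Prelude's `complexEmbedding`, chapter J2) and
`RealBar19.bcBar N` (coefficientwise along `X0.iotaK`, chapter J3a). Both embeddings `ℚ̄ → ℂ` are
`IsAlgClosed.lift`, so everything agrees by `rfl`.
-/
import Mathlib
import Fermat.Agent.ES.HEQ.RealBar19
import Fermat.Agent.J.DESC.DescentFinal24

set_option autoImplicit false
set_option linter.unusedSectionVars false

noncomputable section

namespace Fermat.Agent.J.DESC.BcBridge22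

open Fermat.Agent.X0 Fermat.Agent.ES.KUM Fermat.Agent.ES.HEQ.RealBar19
open Fermat.Agent.J.DESC.DescentFinal24

attribute [local instance] instAlgebraQbarComplex instTowerQbarComplex

/-- The Prelude's `complexEmbedding` is `X0.iotaK`. -/
theorem complexEmbedding_eq_iotaK : (complexEmbedding : Kbar →+* ℂ) = iotaK := rfl

theorem complexEmbedding_apply_eq_iotaK (c : Kbar) : complexEmbedding c = iotaK c := rfl

/-- `algebraMap ℚ̄ ℂ` (for the Prelude's local instance `instAlgebraQbarComplex`) is `X0.iotaK`. -/
theorem algebraMap_eq_iotaK : algebraMap Kbar ℂ = iotaK := rfl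

variable (N : ℕ) [NeZero N]

/-- **The two base changes `F̄_N → F_ℂ` coincide.** -/
theorem bcQC_eq_bcBar : (bcQC N : FQ N →+* FCx N) = bcBar N := rfl

theorem bcQC_apply_eq_bcBar (f : FQ N) : bcQC N f = bcBar N f := rfl

/-- `realMer N ∘ bcQC N = anBar N`. -/
theorem realMer_bcQC (f : FQ N) : realMer N (bcQC N f) = anBar N f := rfl

end Fermat.Agent.J.DESC.BcBridge22
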