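/-
Program J (S30), chapter J2 DESCENT (helper22): **equivariance of the extension maps**
`extPlace`, `extDiv`, `extPic0`, `extTorsion`, `torsionEquiv` of `J/DESC/ExtPic22` for semilinear
automorphisms that exist on BOTH sides of a constant field extension `ι : Fk →+* FK`:

  `g₀ : SemilinearAut k Fk`, `g : SemilinearAut K FK`, `∀ f, g • ι f = ι (g₀ • f)`
  ⟹ `g • extPlace w = extPlace (g₀ • w)`, `g • extDiv D = extDiv (g₀ • D)`,
     `g • extPic0 y = extPic0 (g₀ • y)`, and the same on `n`-torsion.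

(Use: `G_ℚ` acts on `J(ℚ̄)[n]`; on the `ℂ`-side an element `σ ∈ G_ℚ` acts only through a choice of
extension of `σ` to `Aut(ℂ)`; the isomorphism `torsionEquiv` transports one action to the other.)
-/
import Mathlib
import Fermat.Agent.J.DESC.ExtPic22

set_option autoImplicit false
set_option linter.unusedSectionVars false
set_option linter.style.longLine false

namespace Fermat.Agent.J.DESC.ExtPicEquiv22

open AlgebraicCurve Fermat.Agent.X0 Fermat.Agent.J.DESC.ConstExt24
  Fermat.Agent.J.DESC.ExtPic22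
open scoped Pointwise

noncomputable section

universe u v w x

variable {k : Type u} {K : Type v} {Fk : Type w} {FK : Type x} [Field k] [Field K] [Field Fk]
  [Field FK] [Algebra k K] [Algebra k Fk] [Algebra K FK]
  [IsAlgClosed k] [CharZero k] [IsAlgClosed K] [CharZero K] {ι : Fk →+* FK}
  (hι : IsConstExt (k := k) (K := K) ι) {x : Fk} (hx : FF.IsGen k x) {X : FK} (hX : FF.IsGen K X)
  (g₀ : SemilinearAut k Fk) (g : SemilinearAut K FK)

theorem inv_smul_map (hgg : ∀ f : Fk, g • ι f = ι (g₀ • f)) (a : Fk) :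
    g⁻¹ • ι a = ι (g₀⁻¹ • a) := by
  rw [inv_smul_eq_iff, hgg, smul_inv_smul]

/-- "Lying over" is compatible with a pair of intertwined semilinear automorphisms. -/
theorem liesOver_smul_smul (hgg : ∀ f : Fk, g • ι f = ι (g₀ • f))
    {v' : Place K FK} {w : Place k Fk} (h : LiesOver ι v' w) :
    LiesOver ι (g • v') (g₀ • w) := by
  intro a
  rw [SemilinearAut.smul_toValuationSubring, SemilinearAut.smul_toValuationSubring,
    ValuationSubring.mem_pointwise_smul_iff_inv_smul_mem,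
    ValuationSubring.mem_pointwise_smul_iff_inv_smul_mem, inv_smul_map g₀ g hgg a]
  exact h _

include hx in
/-- **`g • extPlace w = extPlace (g₀ • w)`.** -/
theorem smul_extPlace_eq (hgg : ∀ f : Fk, g • ι f = ι (g₀ • f)) (w : Place k Fk) :
    g • extPlace ι hι hX w = extPlace ι hι hX (g₀ • w) :=
  eq_extPlace_of_liesOver hι hx hX (liesOver_smul_smul g₀ g hgg (extPlace_liesOver hι hX w))

include hx in
/-- **`g • extDiv D = extDiv (g₀ • D)`.** -/
theorem smul_extDiv_eq (hgg : ∀ f : Fk, g • ι f = ι (g₀ • f)) (D : Divisor k Fk) :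
    g • extDiv hι hX D = extDiv hι hX (g₀ • D) := by
  rw [SemilinearAut.divisor_smul_def, SemilinearAut.divisor_smul_def, extDiv_apply, extDiv_apply,
    ← Finsupp.mapDomain_comp, ← Finsupp.mapDomain_comp]
  congr 1
  funext w
  exact smul_extPlace_eq hι hx hX g₀ g hgg w

include hx in
/-- **`g • extPic0 y = extPic0 (g₀ • y)`.** -/
theorem smul_extPic0_eq (hgg : ∀ f : Fk, g • ι f = ι (g₀ • f)) (y : Pic0 k Fk) :
    g • extPic0 hι hx hX y = extPic0 hι hx hX (g₀ • y) := by
  obtain ⟨D, rfl⟩ := Pic0.mk_surjective y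
  rw [extPic0_mk, SemilinearAut.pic0_smul_mk, SemilinearAut.pic0_smul_mk, extPic0_mk]
  refine congrArg Pic0.mk (Subtype.ext ?_)
  rw [SemilinearAut.coe_degZeroSMulHom, coe_extDegZero, coe_extDegZero,
    SemilinearAut.coe_degZeroSMulHom, smul_extDiv_eq hι hx hX g₀ g hgg]

include hx in
/-- Equivariance on `n`-torsion. -/
theorem smul_extTorsion_eq (hgg : ∀ f : Fk, g • ι f = ι (g₀ • f)) (n : ℕ)
    (y : Pic0.torsion k Fk n) :
    g • extTorsion hι hx hX n y = extTorsion hι hx hX n (g₀ • y) := by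
  apply Subtype.ext
  rw [SemilinearAut.coe_torsion_smul, coe_extTorsion, coe_extTorsion,
    SemilinearAut.coe_torsion_smul, smul_extPic0_eq hι hx hX g₀ g hgg]

include hx in
/-- Equivariance of `torsionEquiv`. -/
theorem smul_torsionEquiv_eq (hgg : ∀ f : Fk, g • ι f = ι (g₀ • f))
    (ρ : (K ≃ₐ[k] K) →* SemilinearAut K FK)
    (hbase : ∀ (σ : K ≃ₐ[k] K) (c : K), SemilinearAut.baseAut (ρ σ) c = σ c)
    (hfix : ∀ (σ : K ≃ₐ[k] K) (f : Fk), ρ σ • ι f = ι f)
    (hinv : ∀ h : FK, (∀ σ : K ≃ₐ[k] K, ρ σ • h = h) → h ∈ Set.range ι)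
    (n : ℕ) [Finite (Pic0.torsion K FK n)] (y : Pic0.torsion k Fk n) :
    g • torsionEquiv hι hx hX ρ hbase hfix hinv n y =
      torsionEquiv hι hx hX ρ hbase hfix hinv n (g₀ • y) :=
  smul_extTorsion_eq hι hx hX g₀ g hgg n y

include hx in
/-- The transported action: `g₀ • y = torsionEquiv.symm (g • torsionEquiv y)`. -/
theorem smul_eq_symm_smul_torsionEquiv (hgg : ∀ f : Fk, g • ι f = ι (g₀ • f))
    (ρ : (K ≃ₐ[k] K) →* SemilinearAut K FK)
    (hbase : ∀ (σ : K ≃ₐ[k] K) (c : K), SemilinearAut.baseAut (ρ σ) c = σ c)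
    (hfix : ∀ (σ : K ≃ₐ[k] K) (f : Fk), ρ σ • ι f = ι f)
    (hinv : ∀ h : FK, (∀ σ : K ≃ₐ[k] K, ρ σ • h = h) → h ∈ Set.range ι)
    (n : ℕ) [Finite (Pic0.torsion K FK n)] (y : Pic0.torsion k Fk n) :
    g₀ • y = (torsionEquiv hι hx hX ρ hbase hfix hinv n).symm
      (g • torsionEquiv hι hx hX ρ hbase hfix hinv n y) := by
  rw [smul_torsionEquiv_eq hι hx hX g₀ g hgg ρ hbase hfix hinv n y, AddEquiv.symm_apply_apply]

end

end Fermat.Agent.J.DESC.ExtPicEquiv22
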