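/-
Program J (S30), chapter J2 → J3 (helper22): **the inputs of the Hecke correspondence over any
algebraically closed field `L ⊇ ℚ`** (in particular `L = ℂ`).

Mirror of `ES/HECKE/InputsMain19` + `InputsFinal15` (which are stated for `L = ℚ̄`) with the generic
pieces `AlongDegree25` (any `L`), `FundIdentity19.fundamentalIdentityAlong`,
`NormFormula15.normFormulaAlong_of_isGen`, `FieldL25.isGen_jL`, `FieldL25.hasPrincipalDivisors_L`:

  `heckeInputsAlong_L L N ℓ hℓ hℓN : HeckeInputsAlong L N ℓ`   (`ℓ` prime, `ℓ ∤ N`),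

so that the Prelude's `heckeOperatorAlong L N ℓ` is the genuine correspondence `α_* β^*` on
`Pic⁰(F_L)`.
-/
import Mathlib
import Fermat.Prelude.Def_ModularCurve_HeckeOperatorTotal
import Fermat.Agent.ES.HECKE.FundIdentity19
import Fermat.Agent.ES.HECKE.AlongDegree25
import Fermat.Agent.ES.HECKE.NormFormula15
import Fermat.Agent.ES.KUM.FieldL25

set_option autoImplicit false
set_option linter.style.haveILetI false
set_option linter.unusedSectionVars false

open AlgebraicCurve ModularCurve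

noncomputable section

namespace Fermat.Agent.J.DESC.HeckeInputsC22

open Fermat.Agent.X0 Fermat.Agent.ES.HECKE Fermat.Agent.ES.KUM.FieldL25

variable (L : Type) [Field L] [Algebra ℚ L] [IsAlgClosed L] (N ℓ : ℕ) [NeZero N] [NeZero ℓ]

/-- principal divisors of `F_L (N ℓ)`, in the literal shape of `HeckeInputsAlong`. -/
theorem hasPrincipalDivisors_level :
    HasPrincipalDivisors L (laurentBaseChange L (modularFunctionFieldFull (N * ℓ))) :=
  hasPrincipalDivisors_L L (N * ℓ)

/-- the fundamental identity along `β`. -/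
theorem fundamentalIdentityAlong_beta (hℓ : ℓ.Prime) (hℓN : ¬ ℓ ∣ N) :
    haveI := hasPrincipalDivisors_level L N ℓ
    FundamentalIdentityAlong L (heckeBetaBar L N ℓ)
      (AlongDegree25.heckeBetaBarIntegral L N ℓ hℓ hℓN) := by
  haveI := hasPrincipalDivisors_level L N ℓ
  haveI : CharZero L := AlongDegree25.charZero_of_algebraRat L
  exact FundIdentity19.fundamentalIdentityAlong (heckeBetaBar L N ℓ)
    (AlongDegree25.heckeBetaBarIntegral L N ℓ hℓ hℓN)
    (AlongDegree25.finiteAlong_beta L N ℓ hℓ hℓN)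
    (isGen_jL L N) (isGen_jL L (N * ℓ))

/-- the fundamental identity along `α` (for the transpose correspondence). -/
theorem fundamentalIdentityAlong_alpha (hℓ : ℓ.Prime) (hℓN : ¬ ℓ ∣ N) :
    haveI := hasPrincipalDivisors_level L N ℓ
    FundamentalIdentityAlong L (heckeAlphaBar L N ℓ)
      (AlongDegree25.heckeAlphaBarIntegral L N ℓ hℓ hℓN) := by
  haveI := hasPrincipalDivisors_level L N ℓ
  haveI : CharZero L := AlongDegree25.charZero_of_algebraRat L
  exact FundIdentity19.fundamentalIdentityAlong (heckeAlphaBar L N ℓ)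
    (AlongDegree25.heckeAlphaBarIntegral L N ℓ hℓ hℓN)
    (AlongDegree25.finiteAlong_alpha L N ℓ hℓ hℓN)
    (isGen_jL L N) (isGen_jL L (N * ℓ))

/-- the norm formula along `α`. -/
theorem normFormulaAlong_alpha (hℓ : ℓ.Prime) (hℓN : ¬ ℓ ∣ N) :
    NormFormulaAlong L (heckeAlphaBar L N ℓ) (AlongDegree25.finiteAlong_alpha L N ℓ hℓ hℓN) :=
  haveI : CharZero L := AlongDegree25.charZero_of_algebraRat L
  NormFormula15.normFormulaAlong_of_isGen (heckeAlphaBar L N ℓ)
    (AlongDegree25.finiteAlong_alpha L N ℓ hℓ hℓN) (isGen_jL L (N * ℓ))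

/-- the norm formula along `β`. -/
theorem normFormulaAlong_beta (hℓ : ℓ.Prime) (hℓN : ¬ ℓ ∣ N) :
    NormFormulaAlong L (heckeBetaBar L N ℓ) (AlongDegree25.finiteAlong_beta L N ℓ hℓ hℓN) :=
  haveI : CharZero L := AlongDegree25.charZero_of_algebraRat L
  NormFormula15.normFormulaAlong_of_isGen (heckeBetaBar L N ℓ)
    (AlongDegree25.finiteAlong_beta L N ℓ hℓ hℓN) (isGen_jL L (N * ℓ))

/-- **The inputs of the Hecke correspondence `T_ℓ = α_* β^*`** at level `N`, `ℓ ∤ N` prime, over any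
algebraically closed field `L ⊇ ℚ`. -/
theorem heckeInputsAlong_L (hℓ : ℓ.Prime) (hℓN : ¬ ℓ ∣ N) : HeckeInputsAlong L N ℓ := by
  haveI := hasPrincipalDivisors_level L N ℓ
  exact heckeInputsAlong_intro (AlongDegree25.heckeAlphaBarIntegral L N ℓ hℓ hℓN)
    (AlongDegree25.heckeBetaBarIntegral L N ℓ hℓ hℓN)
    (fundamentalIdentityAlong_beta L N ℓ hℓ hℓN)
    (AlongDegree25.finiteAlong_alpha L N ℓ hℓ hℓN) (normFormulaAlong_alpha L N ℓ hℓ hℓN)

/-- the case `L = ℂ`. -/
theorem heckeInputsAlong_C (hℓ : ℓ.Prime) (hℓN : ¬ ℓ ∣ N) : HeckeInputsAlong ℂ N ℓ :=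
  heckeInputsAlong_L ℂ N ℓ hℓ hℓN

/-- **`heckeOperatorAlong L N ℓ` is the correspondence `α_* β^*`** (`ℓ ∤ N` prime). -/
theorem heckeOperatorAlong_eq_L (hℓ : ℓ.Prime) (hℓN : ¬ ℓ ∣ N) :
    haveI := hasPrincipalDivisors_level L N ℓ
    heckeOperatorAlong L N ℓ =
      heckePic0Bar (AlongDegree25.heckeAlphaBarIntegral L N ℓ hℓ hℓN)
        (AlongDegree25.heckeBetaBarIntegral L N ℓ hℓ hℓN)
        (fundamentalIdentityAlong_beta L N ℓ hℓ hℓN)
        (AlongDegree25.finiteAlong_alpha L N ℓ hℓ hℓN) (normFormulaAlong_alpha L N ℓ hℓ hℓN) := by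
  haveI := hasPrincipalDivisors_level L N ℓ
  exact heckeOperatorAlong_eq _ _ _ _ _

end Fermat.Agent.J.DESC.HeckeInputsC22
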