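/-
Program J (S30), chapter J2 → J3 (helper22): **the Hecke operators commute with the base change
`J₀(N)(ℚ̄) → Pic⁰(F_ℂ)`** of `J/DESC/DescentFinal24`:

  `heckeOperatorAlong ℂ N ℓ (extPic0C N y) = extPic0C N (heckeOperatorAlong ℚ̄ N ℓ y)`   (`ℓ ∤ N` prime),

and on torsion: `torsionEquivC N n` intertwines the restrictions of `T_ℓ` to the `n`-torsion.
Inputs: `ExtPicHecke22.pic0_correspondence_extPic0` (abstract), `HeckeInputsC22` (the inputs of the
correspondence over `ℚ̄` and over `ℂ`), and the fact that the degeneracy maps `α`, `β` commute with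
the coefficientwise base change.
-/
import Mathlib
import Fermat.Agent.J.DESC.DescentFinal24
import Fermat.Agent.J.DESC.ExtPicHecke22
import Fermat.Agent.J.DESC.HeckeInputsC22

set_option autoImplicit false
set_option linter.style.haveILetI false
set_option linter.unusedSectionVars false
set_option linter.style.longLine false

open AlgebraicCurve ModularCurve

noncomputable section

namespace Fermat.Agent.J.DESC.HeckeDescent22

open Fermat.Agent.X0 Fermat.Agent.ES.HECKE Fermat.Agent.ES.KUM.FieldL25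
open Fermat.Agent.J.DESC.ConstExt24 Fermat.Agent.J.DESC.LaurentExt24
open Fermat.Agent.J.DESC.DescentFinal24 Fermat.Agent.J.DESC.ExtPic22
open Fermat.Agent.J.DESC.HeckeInputsC22

attribute [local instance] instAlgebraQbarComplex instTowerQbarComplex

/-! ### Restriction of an endomorphism of `Pic⁰` to the `n`-torsion -/

section TorsionRestrict

variable {K F : Type*} [Field K] [Field F] [Algebra K F]

/-- The restriction of an additive endomorphism of `Pic⁰` to the `n`-torsion. -/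
def torsionRestrict (T : Pic0 K F →+ Pic0 K F) (n : ℕ) :
    Pic0.torsion K F n →+ Pic0.torsion K F n :=
  (T.comp (Pic0.torsion K F n).subtype).codRestrict _ (fun y => by
    rw [Pic0.mem_torsion]
    show (n : ℤ) • T (y : Pic0 K F) = 0
    rw [← map_zsmul, Pic0.mem_torsion.mp y.2, map_zero])

@[simp]
theorem coe_torsionRestrict (T : Pic0 K F →+ Pic0 K F) (n : ℕ) (y : Pic0.torsion K F n) :
    (torsionRestrict T n y : Pic0 K F) = T (y : Pic0 K F) := rfl

end TorsionRestrict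

/-! ### The degeneracy maps commute with base change -/

theorem coeffMap_qExpand' {R S : Type*} [CommRing R] [CommRing S] (f : R →+* S) (n : ℕ)
    [NeZero n] (x : LaurentSeries R) :
    coeffMap f (qExpand R n x) = qExpand S n (coeffMap f x) := by
  ext k
  by_cases hk : (n : ℤ) ∣ k
  · obtain ⟨m, rfl⟩ := hk
    rw [coeffMap_coeff, qExpand_coeff_mul, qExpand_coeff_mul, coeffMap_coeff]
  · rw [coeffMap_coeff, qExpand_coeff_of_not_dvd n _ hk, qExpand_coeff_of_not_dvd n _ hk,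
      map_zero]

variable (N ℓ : ℕ) [NeZero N] [NeZero ℓ]

theorem heckeAlphaBar_bcQC (f : FQ N) :
    heckeAlphaBar ℂ N ℓ (bcQC N f) = bcQC (N * ℓ) (heckeAlphaBar Qb N ℓ f) := by
  apply Subtype.ext
  rw [coe_heckeAlphaBar, coe_bcQC, coe_bcQC, coe_heckeAlphaBar]

theorem heckeBetaBar_bcQC (f : FQ N) :
    heckeBetaBar ℂ N ℓ (bcQC N f) = bcQC (N * ℓ) (heckeBetaBar Qb N ℓ f) := by
  apply Subtype.ext
  rw [coe_heckeBetaBar, coe_bcQC, coe_bcQC, coe_heckeBetaBar, coeffMap_qExpand']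

/-! ### `T_ℓ` commutes with base change -/

/-- **`T_ℓ^ℂ (extPic0C y) = extPic0C (T_ℓ y)`** for `ℓ ∤ N` prime. -/
theorem heckeOperatorAlong_extPic0C (hℓ : ℓ.Prime) (hℓN : ¬ ℓ ∣ N) (y : Pic0 Qb (FQ N)) :
    heckeOperatorAlong ℂ N ℓ (extPic0C N y) = extPic0C N (heckeOperatorAlong Qb N ℓ y) := by
  haveI := hasPrincipalDivisors_level ℂ N ℓ
  haveI := hasPrincipalDivisors_level Qb N ℓ
  rw [heckeOperatorAlong_eq_L ℂ N ℓ hℓ hℓN, heckeOperatorAlong_eq_L Qb N ℓ hℓ hℓN]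
  exact ExtPicHecke22.pic0_correspondence_extPic0
    (isConstExt_bcQC N) (isGen_jL Qb N) (isGen_jL ℂ N)
    (isConstExt_bcQC (N * ℓ)) (isGen_jL Qb (N * ℓ)) (isGen_jL ℂ (N * ℓ))
    (heckeBetaBar Qb N ℓ) (heckeBetaBar ℂ N ℓ)
    (AlongDegree25.heckeBetaBarIntegral Qb N ℓ hℓ hℓN)
    (AlongDegree25.heckeBetaBarIntegral ℂ N ℓ hℓ hℓN)
    (heckeAlphaBar Qb N ℓ) (heckeAlphaBar ℂ N ℓ)
    (AlongDegree25.heckeAlphaBarIntegral Qb N ℓ hℓ hℓN)
    (AlongDegree25.heckeAlphaBarIntegral ℂ N ℓ hℓ hℓN)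
    (heckeBetaBar_bcQC N ℓ) (heckeAlphaBar_bcQC N ℓ)
    (fundamentalIdentityAlong_beta Qb N ℓ hℓ hℓN)
    (AlongDegree25.finiteAlong_alpha Qb N ℓ hℓ hℓN) (normFormulaAlong_alpha Qb N ℓ hℓ hℓN)
    (fundamentalIdentityAlong_beta ℂ N ℓ hℓ hℓN)
    (AlongDegree25.finiteAlong_alpha ℂ N ℓ hℓ hℓN) (normFormulaAlong_alpha ℂ N ℓ hℓ hℓN) y

/-- `torsionEquivC` intertwines the Hecke operators on `n`-torsion (coerced form). -/
theorem coe_torsionEquivC_hecke (hℓ : ℓ.Prime) (hℓN : ¬ ℓ ∣ N) (n : ℕ)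
    [Finite (Pic0.torsion ℂ (FCx N) n)] (y : Pic0.torsion Qb (FQ N) n) :
    (torsionEquivC N n (torsionRestrict (heckeOperatorAlong Qb N ℓ) n y) : Pic0 ℂ (FCx N)) =
      heckeOperatorAlong ℂ N ℓ (torsionEquivC N n y : Pic0 ℂ (FCx N)) := by
  rw [coe_torsionEquivC_apply, coe_torsionEquivC_apply, coe_torsionRestrict,
    heckeOperatorAlong_extPic0C N ℓ hℓ hℓN]

/-- **`torsionEquivC` intertwines the Hecke operators on `n`-torsion.** -/
theorem torsionEquivC_hecke (hℓ : ℓ.Prime) (hℓN : ¬ ℓ ∣ N) (n : ℕ)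
    [Finite (Pic0.torsion ℂ (FCx N) n)] (y : Pic0.torsion Qb (FQ N) n) :
    torsionEquivC N n (torsionRestrict (heckeOperatorAlong Qb N ℓ) n y) =
      torsionRestrict (heckeOperatorAlong ℂ N ℓ) n (torsionEquivC N n y) :=
  Subtype.ext (coe_torsionEquivC_hecke N ℓ hℓ hℓN n y)

/-- The same, read from the `ℂ`-side. -/
theorem torsionEquivC_symm_hecke (hℓ : ℓ.Prime) (hℓN : ¬ ℓ ∣ N) (n : ℕ)
    [Finite (Pic0.torsion ℂ (FCx N) n)] (z : Pic0.torsion ℂ (FCx N) n) :
    (torsionEquivC N n).symm (torsionRestrict (heckeOperatorAlong ℂ N ℓ) n z) =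
      torsionRestrict (heckeOperatorAlong Qb N ℓ) n ((torsionEquivC N n).symm z) := by
  rw [AddEquiv.symm_apply_eq, torsionEquivC_hecke N ℓ hℓ hℓN, AddEquiv.apply_symm_apply]

end Fermat.Agent.J.DESC.HeckeDescent22
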