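/-
Program J, chapter J2 (DESC), supplement to leaf (D4) (helper10): the normal form of a class determines
the class (`normalFormPic_injective`), and the `∃!` characterisation of the normal form.
-/
import Mathlib
import Fermat.Agent.J.DESC.NormalForm10

set_option autoImplicit false

noncomputable section

open AlgebraicCurve

namespace Fermat.Agent.J.DESC.NormalFormInj10

open Fermat.Agent.RR.LSpace Fermat.Agent.J.DESC.NormalForm10

variable {K F : Type*} [Field K] [Field F] [Algebra K F]
variable (H : LHyp K F) (hR : RiemannHyp K F) (P₀ : Place K F)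

/-- **`E x = E y → x = y`.** -/
theorem normalFormPic_injective : Function.Injective (normalFormPic H hR P₀) := by
  intro x y hxy
  have hm : minPolePic H hR P₀ x = minPolePic H hR P₀ y := by
    have h1 := degree_normalFormPic H hR P₀ x
    have h2 := degree_normalFormPic H hR P₀ y
    rw [hxy, h2] at h1
    exact_mod_cast h1.symm
  rw [← mk_normalFormPic' H hR P₀ x, ← mk_normalFormPic' H hR P₀ y]
  congr 1
  apply Subtype.ext
  show normalFormPic H hR P₀ x - Finsupp.single P₀ ((minPolePic H hR P₀ x : ℕ) : ℤ) =
    normalFormPic H hR P₀ y - Finsupp.single P₀ ((minPolePic H hR P₀ y : ℕ) : ℤ)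
  rw [hxy, hm]

/-- an automorphism fixing `P₀` fixes the class `x` iff it fixes its normal form. -/
theorem smul_eq_iff_smul_normalFormPic_eq (g : SemilinearAut K F) (hg : g • P₀ = P₀)
    (x : Pic0 K F) : g • x = x ↔ g • normalFormPic H hR P₀ x = normalFormPic H hR P₀ x := by
  rw [← normalFormPic_smul H hR P₀ g hg x]
  exact ⟨fun h => by rw [h], fun h => normalFormPic_injective H hR P₀ h⟩

/-- characterisation: an effective divisor `E` with `E - m·P₀` in the class of `D` (`deg D = 0`) and
`m ≤ minPole D` is the normal form of `D` (and `m = minPole D`). -/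
theorem eq_normalForm_of_nonneg {D E : Divisor K F} (hD : Divisor.degree D = 0) {m : ℕ}
    (hE : 0 ≤ E) (hm : m ≤ minPole H hR P₀ D)
    (hcl : E - Finsupp.single P₀ (m : ℤ) - D ∈ Divisor.principal (K := K) (F := F)) :
    m = minPole H hR P₀ D ∧ E = normalForm H hR P₀ D := by
  obtain ⟨f, hf0, hf⟩ := hcl
  -- `f ∈ L(D + m P₀)`
  have hfmem : f ∈ riemannRochSpace (shift P₀ D m) := by
    rw [mem_L_iff hf0]
    intro v
    have h1 := hf v
    have h2 := hE v
    simp only [Finsupp.coe_zero, Pi.zero_apply] at h2
    rw [Finsupp.sub_apply, Finsupp.sub_apply] at h1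
    rw [shift, Finsupp.add_apply]
    omega
  have hne : riemannRochSpace (shift P₀ D m) ≠ ⊥ := by
    intro hbot
    rw [hbot, Submodule.mem_bot] at hfmem
    exact hf0 hfmem
  have hmeq : m = minPole H hR P₀ D := le_antisymm hm (minPole_le H hR P₀ D hne)
  refine ⟨hmeq, ?_⟩
  rw [hmeq] at hfmem
  rw [normalForm_eq H hR P₀ D hD hf0 hfmem, ← eq_divOf H hf0 hf, shift, hmeq]
  abel

end Fermat.Agent.J.DESC.NormalFormInj10
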